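import Fermat.Agent.Huxley.Detection
import Fermat.Agent.FourthMoment.Main
import Fermat.Agent.Hoheisel.ZeroDensity

/-!
# The second class

The sum over the zeros up to `T` of the fourth power of the average of `|ζ|` is `O (T log ^ 5 T)`.
-/

set_option autoImplicit false

noncomputable section

namespace FA.Huxley

open Finset Filter MeasureTheory
open FA.SelbergCLT (decay decay_nonneg continuous_decay integrable_decay decay_le_of_le
  decay_le_one norm_sq_integral_le integrable_of_decay pow_mul_decay)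
open FA.FourthMoment (quart continuous_quart quart_nonneg fourth_moment_le)
open FA.ZeroFree (ell ell_pos ell_mono)
open FA.RiemannMangoldt FA.ExplicitFormula
open FA.Hoheisel (countGe exists_countGe_trivial)
open scoped Topology Real

theorem quart_eq (t : ℝ) : quart t = critNorm t ^ 4 := rfl

theorem decay_shift_le (m : ℕ) (a b : ℝ) : decay m (a + b) ≤ (1 + |b|) ^ m * decay m a := by
  rw [decay, decay, ← div_eq_mul_inv, le_div_iff₀ (by positivity), inv_mul_le_iff₀ (by positivity),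
    ← mul_pow]
  refine pow_le_pow_left₀ (by positivity) ?_ m
  have h := abs_add_le (a + b) (-b)
  rw [add_neg_cancel_right, abs_neg] at h
  nlinarith [mul_nonneg (abs_nonneg (a + b)) (abs_nonneg b)]

theorem exists_decay_quart_le : ∃ C, 0 ≤ C ∧ ∀ g τ : ℝ,
    decay 8 (τ - g) * quart τ ≤ C * (1 + |g|) ^ 4 * decay 4 (τ - g) := by
  obtain ⟨C, hC, h⟩ := exists_critNorm_le
  refine ⟨C ^ 4, by positivity, fun g τ => ?_⟩
  have h1 : critNorm τ ≤ C * ((1 + |g|) * (1 + |τ - g|)) := (h τ).trans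
    (mul_le_mul_of_nonneg_left (by
      have := abs_add_le g (τ - g)
      rw [add_sub_cancel] at this
      nlinarith [mul_nonneg (abs_nonneg g) (abs_nonneg (τ - g))]) hC)
  rw [quart_eq]
  refine (mul_le_mul_of_nonneg_left (pow_le_pow_left₀ (norm_nonneg _) h1 4)
    (decay_nonneg _ _)).trans (le_of_eq ?_)
  rw [← pow_mul_decay (show 4 ≤ 8 by norm_num) (τ - g)]
  ring

/-- The average of `|ζ| ^ 4` near `t`. -/
def quartAvg (t : ℝ) : ℝ := ∫ τ, decay 8 (τ - t) * quart τ

theorem integrable_quartAvg (t : ℝ) : Integrable fun τ => decay 8 (τ - t) * quart τ := by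
  obtain ⟨C, hC, h⟩ := exists_decay_quart_le
  refine (((integrable_decay (show 2 ≤ 4 by norm_num)).comp_sub_right t).const_mul
    (C * (1 + |t|) ^ 4)).mono' (((continuous_decay 8).comp (by fun_prop)).mul
      continuous_quart).aestronglyMeasurable (Eventually.of_forall fun τ => ?_)
  rw [Real.norm_of_nonneg (mul_nonneg (decay_nonneg _ _) (quart_nonneg _))]
  exact h t τ

/-- Hölder. -/
theorem critAvg_pow_le (t : ℝ) : critAvg t ^ 4 ≤ (∫ v, decay 8 v) ^ 3 * quartAvg t := by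
  obtain ⟨C, hC, h⟩ := exists_critNorm_le
  have hq : ∀ i : ℕ, i ≤ 4 → Integrable fun v => decay 8 v * critNorm (t + v) ^ i := fun i hi => by
    refine integrable_of_decay (m := 8 - i) (by omega) ((continuous_decay 8).mul
      ((continuous_critNorm.comp (by fun_prop)).pow i)) (C := (C * (1 + |t|)) ^ i) fun v => ?_
    rw [Real.norm_of_nonneg (show 0 ≤ decay 8 v * critNorm (t + v) ^ i from
      mul_nonneg (decay_nonneg _ _) (pow_nonneg (norm_nonneg _) i)),
      ← pow_mul_decay (show i ≤ 8 by omega) v, ← mul_assoc, ← mul_pow, mul_comm (decay 8 v)]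
    refine mul_le_mul_of_nonneg_right (pow_le_pow_left₀ (norm_nonneg _) ((h (t + v)).trans ?_) i)
      (decay_nonneg _ _)
    rw [mul_assoc]
    exact mul_le_mul_of_nonneg_left (by
      nlinarith [abs_add_le t v, abs_nonneg t, abs_nonneg v]) hC
  have hcs : ∀ i : ℕ, 2 * i ≤ 4 → (∫ v, decay 8 v * critNorm (t + v) ^ i) ^ 2 ≤
      (∫ v, decay 8 v) * ∫ v, decay 8 v * critNorm (t + v) ^ (2 * i) := fun i hi => by
    have h := norm_sq_integral_le (h := fun v => ((decay 8 v * critNorm (t + v) ^ i : ℝ) : ℂ))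
      (A := decay 8) (B := fun v => critNorm (t + v) ^ i) (decay_nonneg 8)
      (fun v => pow_nonneg (norm_nonneg _) i) (fun v => le_of_eq (by
        rw [Complex.norm_real, Real.norm_of_nonneg (show 0 ≤ decay 8 v * critNorm (t + v) ^ i from
          mul_nonneg (decay_nonneg _ _) (pow_nonneg (norm_nonneg _) i))]))
      (integrable_decay (by norm_num)) (hq i (by omega))
      (by simpa only [← pow_mul, mul_comm i] using hq (2 * i) hi)
    rw [integral_complex_ofReal, Complex.norm_real, Real.norm_eq_abs, sq_abs] at h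
    simpa only [← pow_mul, mul_comm i] using h
  have e : quartAvg t = ∫ v, decay 8 v * critNorm (t + v) ^ (2 * 2) := by
    rw [quartAvg, ← integral_add_left_eq_self (fun τ => decay 8 (τ - t) * quart τ) t]
    simp only [add_sub_cancel_left, quart_eq]
  have h1 := hcs 1 (by norm_num)
  have h2 := hcs 2 le_rfl
  simp only [pow_one, mul_one] at h1
  rw [← e] at h2
  have hJ : 0 ≤ ∫ v, decay 8 v := integral_nonneg (decay_nonneg 8)
  calc critAvg t ^ 4 = (critAvg t ^ 2) ^ 2 := by ring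
    _ ≤ ((∫ v, decay 8 v) * ∫ v, decay 8 v * critNorm (t + v) ^ 2) ^ 2 :=
        pow_le_pow_left₀ (sq_nonneg _) h1 2
    _ = (∫ v, decay 8 v) ^ 2 * (∫ v, decay 8 v * critNorm (t + v) ^ 2) ^ 2 := by ring
    _ ≤ (∫ v, decay 8 v) ^ 2 * ((∫ v, decay 8 v) * quartAvg t) :=
        mul_le_mul_of_nonneg_left h2 (sq_nonneg _)
    _ = _ := by ring

theorem sum_decay_two_le (x : ℝ) (K : ℕ) :
    ∑ k ∈ range K, decay 2 (x - k) ≤ 4 * ∫ v, decay 2 v := by
  have hc : Continuous fun u : ℝ => decay 2 (x - u) := (continuous_decay 2).comp (by fun_prop)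
  have hi : ∀ k : ℕ, decay 2 (x - k) ≤ 4 * ∫ u in (k : ℝ)..((k + 1 : ℕ) : ℝ), decay 2 (x - u) := by
    intro k
    rw [← intervalIntegral.integral_const_mul]
    calc decay 2 (x - k) = ∫ _u in (k : ℝ)..((k + 1 : ℕ) : ℝ), decay 2 (x - k) := by
          rw [intervalIntegral.integral_const, smul_eq_mul]; push_cast; ring
      _ ≤ _ := by
          refine intervalIntegral.integral_mono_on (Nat.cast_le.2 k.le_succ)
            intervalIntegrable_const ((hc.const_mul 4).intervalIntegrable _ _) fun u hu => ?_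
          have h := decay_shift_le 2 (x - u) (u - k)
          rw [sub_add_sub_cancel] at h
          refine h.trans (mul_le_mul_of_nonneg_right ?_ (decay_nonneg _ _))
          refine (pow_le_pow_left₀ (by positivity) (show 1 + |u - k| ≤ 2 by
            have := hu.1; have := hu.2; push_cast at *
            rw [abs_of_nonneg (by linarith)]; linarith) 2).trans (le_of_eq (by norm_num))
  refine (sum_le_sum fun k _ => hi k).trans ?_
  rw [← mul_sum, intervalIntegral.sum_integral_adjacent_intervals (a := fun k : ℕ => (k : ℝ))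
    fun k _ => hc.intervalIntegrable _ _]
  refine mul_le_mul_of_nonneg_left ?_ (by norm_num)
  rw [intervalIntegral.integral_of_le (Nat.cast_le.2 (Nat.zero_le K)),
    ← integral_sub_left_eq_self (decay 2) volume x]
  exact setIntegral_le_integral ((integrable_decay le_rfl).comp_sub_left x)
    (Eventually.of_forall fun _ => decay_nonneg _ _)

theorem exists_sum_decay_le : ∃ C, 0 ≤ C ∧ ∀ (T τ : ℝ) (Z : Finset ℂ), 0 ≤ T →
    (∀ ρ ∈ Z, xiFn ρ = 0 ∧ |ρ.im| ≤ T) →
      ∑ ρ ∈ Z, (zeroWeight ρ : ℝ) * decay 8 (τ - ρ.im) ≤ C * ell T := by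
  obtain ⟨C, hC, h⟩ := exists_sum_blocks
  refine ⟨C * 16 * ∫ v, decay 2 v,
    mul_nonneg (by positivity) (integral_nonneg (decay_nonneg 2)), fun T τ Z hT hZ => ?_⟩
  refine (h Z (range (⌊T⌋₊ + 1)) (fun ρ => decay 8 (τ - ρ.im))
    (fun k => 4 * decay 2 (|τ| - k)) (fun ρ hρ => ⟨(hZ ρ hρ).1, Finset.mem_range.2
      (Nat.lt_succ_of_le (Nat.floor_mono (hZ ρ hρ).2)), ?_⟩)
      fun k _ => mul_nonneg (by norm_num) (decay_nonneg _ _)).trans ?_
  · obtain ⟨k, hk⟩ : ∃ k : ℕ, k = ⌊|ρ.im|⌋₊ := ⟨_, rfl⟩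
    rw [← hk]
    have h1 : (k : ℝ) ≤ |ρ.im| := hk ▸ Nat.floor_le (abs_nonneg _)
    have h2 : |ρ.im| < k + 1 := hk ▸ Nat.lt_floor_add_one _
    have h3 : |(|τ| - |ρ.im|)| ≤ |τ - ρ.im| := abs_abs_sub_abs_le_abs_sub _ _
    have h4 := decay_shift_le 2 (|τ| - k) ((k : ℝ) - |ρ.im|)
    rw [sub_add_sub_cancel] at h4
    refine (decay_le_of_le (show 2 ≤ 8 by norm_num) _).trans ((inv_anti₀ (by positivity)
      (pow_le_pow_left₀ (by positivity) (by linarith) 2)).trans (h4.trans ?_))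
    refine mul_le_mul_of_nonneg_right ?_ (decay_nonneg _ _)
    refine (pow_le_pow_left₀ (by positivity) (show 1 + |(k : ℝ) - (|ρ.im|)| ≤ 2 by
      rw [abs_sub_comm, abs_of_nonneg (by linarith)]; linarith) 2).trans (le_of_eq (by norm_num))
  · rw [mul_assoc C, mul_assoc]
    refine mul_le_mul_of_nonneg_left ?_ hC
    refine (sum_le_sum (g := fun k : ℕ => ell T * (4 * decay 2 (|τ| - k))) fun k hk =>
      mul_le_mul_of_nonneg_right (ell_mono ?_) (mul_nonneg (by norm_num) (decay_nonneg _ _))).trans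
        ?_
    · rw [Nat.abs_cast, abs_of_nonneg hT]
      exact (Nat.cast_le.2 (Nat.lt_succ_iff.1 (Finset.mem_range.1 hk))).trans (Nat.floor_le hT)
    · rw [← mul_sum, ← mul_sum, mul_comm (16 * _) (ell T)]
      refine mul_le_mul_of_nonneg_left ?_ (ell_pos T).le
      linarith [sum_decay_two_le |τ| (⌊T⌋₊ + 1)]

theorem ell_le_two_log {T : ℝ} (hT : 11 ≤ T) : ell T ≤ 2 * Real.log T := by
  rw [ell, abs_of_pos (by linarith), show 2 * Real.log T = Real.log (T ^ 2) by
    rw [Real.log_pow]; norm_num]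
  exact Real.log_le_log (by positivity) (by nlinarith)

theorem two_le_log {T : ℝ} (hT : 11 ≤ T) : 2 ≤ Real.log T := by
  rw [Real.le_log_iff_exp_le (by linarith), show (2 : ℝ) = 1 + 1 by norm_num, Real.exp_add]
  nlinarith [Real.exp_one_lt_three, Real.exp_pos 1]

/-- The moment over `[-2T, 2T]`. -/
theorem exists_quart_window_le : ∃ C, 0 ≤ C ∧ ∀ T : ℝ, 11 ≤ T →
    ∫ τ in Set.Icc (-(2 * T)) (2 * T), quart τ ≤ C * (T * Real.log T ^ 4) := by
  obtain ⟨C, hC, h⟩ := fourth_moment_le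
  refine ⟨4 * C * 2 ^ 4, by positivity, fun T hT => ?_⟩
  rw [integral_Icc_eq_integral_Ioc, ← intervalIntegral.integral_of_le (by linarith),
    ← intervalIntegral.integral_add_adjacent_intervals (b := 0)
      (continuous_quart.intervalIntegrable _ _) (continuous_quart.intervalIntegrable _ _)]
  have e : ∫ τ in (-(2 * T))..0, quart τ = ∫ τ in (0 : ℝ)..2 * T, quart τ := by
    have h := intervalIntegral.integral_comp_neg (a := 0) (b := 2 * T) quart
    rw [neg_zero] at h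
    rw [← h]
    exact intervalIntegral.integral_congr fun x _ => by rw [quart_eq, quart_eq, critNorm_neg]
  rw [e]
  have h1 : ∫ τ in (0 : ℝ)..2 * T, quart τ ≤ C * (2 * T * Real.log (2 * T + 2) ^ 4) :=
    h (2 * T) (by linarith)
  have h2 : Real.log (2 * T + 2) ≤ 2 * Real.log T := by
    rw [show 2 * Real.log T = Real.log (T ^ 2) by rw [Real.log_pow]; norm_num]
    exact Real.log_le_log (by linarith) (by nlinarith)
  have h3 := mul_le_mul_of_nonneg_left (pow_le_pow_left₀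
    (Real.log_nonneg (by linarith : (1 : ℝ) ≤ 2 * T + 2)) h2 4)
      (show 0 ≤ C * (2 * T) by positivity)
  linarith

/-- **The sum of the fourth powers.** -/
theorem exists_sum_quartAvg_le : ∃ C, 0 ≤ C ∧ ∀ (T : ℝ) (Z : Finset ℂ), 11 ≤ T →
    (∀ ρ ∈ Z, xiFn ρ = 0 ∧ |ρ.im| ≤ T) →
      ∑ ρ ∈ Z, (zeroWeight ρ : ℝ) * quartAvg ρ.im ≤ C * (T * Real.log T ^ 5) := by
  obtain ⟨Cd, hCd, hd⟩ := exists_sum_decay_le
  obtain ⟨Cq, hCq, hq⟩ := exists_quart_window_le
  obtain ⟨Ct, hCt, ht⟩ := exists_countGe_trivial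
  obtain ⟨Cz, hCz, hz⟩ := exists_decay_quart_le
  obtain ⟨J, hJ⟩ : ∃ J, J = ∫ v, decay 2 v := ⟨_, rfl⟩
  have hJ0 : 0 ≤ J := hJ ▸ integral_nonneg (decay_nonneg 2)
  refine ⟨2 * Cd * Cq + 256 * Cz * Ct * J, by positivity, fun T Z hT hZ => ?_⟩
  obtain ⟨L, hL⟩ : ∃ L, L = Real.log T := ⟨_, rfl⟩
  have hL2 : 2 ≤ L := hL ▸ two_le_log hT
  rw [← hL]
  simp only [quartAvg, ← integral_const_mul]
  rw [← integral_finsetSum _ fun ρ _ => (integrable_quartAvg ρ.im).const_mul _]
  obtain ⟨R, hR⟩ : ∃ R : ℝ, R = ∑ ρ ∈ Z, (zeroWeight ρ : ℝ) := ⟨_, rfl⟩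
  have hR1 : R ≤ Ct * (T * L) := by
    refine le_trans ?_ (hL ▸ ht 0 T (by linarith))
    rw [hR, countGe, Nat.cast_sum]
    refine sum_le_sum_of_subset_of_nonneg (fun ρ hρ => ?_) fun _ _ _ => Nat.cast_nonneg _
    simp only [Finset.mem_filter, mem_zerosUpTo]
    exact ⟨hZ ρ hρ, (xiFn_zero_strip (hZ ρ hρ).1).1.le⟩
  have hR0 : 0 ≤ R := hR ▸ sum_nonneg fun _ _ => Nat.cast_nonneg _
  obtain ⟨W, hW⟩ : ∃ W : Set ℝ, W = Set.Icc (-(2 * T)) (2 * T) := ⟨_, rfl⟩
  have hWm : MeasurableSet W := hW ▸ measurableSet_Icc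
  have hWq : IntegrableOn quart W := hW ▸ continuous_quart.integrableOn_Icc
  have hi1 : Integrable fun τ => Cd * ell T * W.indicator quart τ :=
    ((integrable_indicator_iff hWm).2 hWq).const_mul _
  have hi2 : Integrable fun τ => 256 * Cz * R / T ^ 2 * decay 2 τ :=
    (integrable_decay le_rfl).const_mul _
  refine (integral_mono (integrable_finsetSum _ fun ρ _ => (integrable_quartAvg ρ.im).const_mul _)
    (hi1.add hi2) fun τ => ?_).trans ?_
  · simp only [Pi.add_apply]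
    have hq0 := quart_nonneg τ
    by_cases hτ : τ ∈ W
    · rw [Set.indicator_of_mem hτ]
      refine le_add_of_le_of_nonneg ?_ (mul_nonneg (by positivity) (decay_nonneg _ _))
      rw [sum_congr rfl fun ρ _ => (mul_assoc _ _ _).symm, ← Finset.sum_mul]
      exact mul_le_mul_of_nonneg_right (hd T τ Z (by linarith) hZ) hq0
    · rw [Set.indicator_of_notMem hτ, mul_zero, zero_add]
      have hτ' : 2 * T < |τ| := by
        rw [hW, Set.mem_Icc, ← abs_le] at hτ
        exact not_le.1 hτ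
      have hterm : ∀ ρ ∈ Z, decay 8 (τ - ρ.im) ≤ 256 * decay 8 τ := fun ρ hρ => by
        have h1 := abs_sub_abs_le_abs_sub τ ρ.im
        have h2 := (hZ ρ hρ).2
        rw [decay, decay, show (256 : ℝ) = 2 ^ 8 by norm_num, ← div_eq_mul_inv,
          le_div_iff₀ (by positivity), inv_mul_le_iff₀ (by positivity), ← mul_pow]
        exact pow_le_pow_left₀ (by positivity) (by linarith) 8
      have h2 : decay 8 τ * quart τ ≤ Cz * decay 2 τ / T ^ 2 := by
        have h := hz 0 τ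
        simp only [sub_zero, abs_zero, add_zero, one_pow, mul_one] at h
        refine h.trans ?_
        rw [mul_div_assoc]
        refine mul_le_mul_of_nonneg_left ?_ hCz
        rw [← pow_mul_decay (show 2 ≤ 4 by norm_num) τ, le_div_iff₀ (by positivity), mul_comm]
        exact mul_le_mul_of_nonneg_right (pow_le_pow_left₀ (by linarith) (by linarith) 2)
          (decay_nonneg _ _)
      calc ∑ ρ ∈ Z, (zeroWeight ρ : ℝ) * (decay 8 (τ - ρ.im) * quart τ)
          ≤ ∑ ρ ∈ Z, (zeroWeight ρ : ℝ) * (256 * (decay 8 τ * quart τ)) := by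
            refine sum_le_sum fun ρ hρ => mul_le_mul_of_nonneg_left ?_ (Nat.cast_nonneg _)
            rw [← mul_assoc 256]
            exact mul_le_mul_of_nonneg_right (hterm ρ hρ) hq0
        _ = R * (256 * (decay 8 τ * quart τ)) := by rw [hR, Finset.sum_mul]
        _ ≤ R * (256 * (Cz * decay 2 τ / T ^ 2)) := by gcongr
        _ = _ := by ring
  · rw [integral_add' hi1 hi2, integral_const_mul, integral_const_mul,
      integral_indicator hWm, ← hJ, hW]
    have h1 : Cd * ell T * ∫ τ in Set.Icc (-(2 * T)) (2 * T), quart τ ≤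
        2 * Cd * Cq * (T * L ^ 5) := by
      refine (mul_le_mul (mul_le_mul_of_nonneg_left (ell_le_two_log hT) hCd) (hq T hT)
        (setIntegral_nonneg measurableSet_Icc fun x _ => quart_nonneg x)
        (mul_nonneg hCd (by linarith))).trans (le_of_eq ?_)
      rw [← hL]
      ring
    have h2 : 256 * Cz * R / T ^ 2 * J ≤ 256 * Cz * Ct * J * (T * L ^ 5) := by
      have e1 : R / T ^ 2 ≤ Ct * (T * L ^ 5) := by
        refine (div_le_self hR0 (one_le_pow₀ (by linarith))).trans (hR1.trans ?_)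
        gcongr
        exact le_self_pow₀ (by linarith) (by norm_num)
      have := mul_le_mul_of_nonneg_left e1 (show 0 ≤ 256 * Cz * J by positivity)
      refine le_trans (le_of_eq ?_) (this.trans (le_of_eq ?_)) <;> ring
    linarith

/-- **The count of the second class.** -/
theorem exists_classTwo : ∃ C, 0 ≤ C ∧ ∀ (σ K : ℝ) (X : ℕ) (T : ℝ) (Z : Finset ℂ), 11 ≤ T →
    0 ≤ K → (X : ℝ) ≤ T ^ (1 / 10 : ℝ) → (∀ ρ ∈ Z, xiFn ρ = 0 ∧ |ρ.im| ≤ T ∧
      T ^ (3 / 5 * (σ - 1 / 2)) ≤ K * √(X : ℝ) * critAvg ρ.im) →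
      ∑ ρ ∈ Z, (zeroWeight ρ : ℝ) ≤
        C * K ^ 4 * T ^ (12 / 5 * (1 - σ)) * Real.log T ^ 5 := by
  obtain ⟨C, hC, h⟩ := exists_sum_quartAvg_le
  obtain ⟨J, hJ⟩ : ∃ J, J = ∫ v, decay 8 v := ⟨_, rfl⟩
  have hJ0 : 0 ≤ J := hJ ▸ integral_nonneg (decay_nonneg 8)
  refine ⟨C * J ^ 3, by positivity, fun σ K X T Z hT hK hX hZ => ?_⟩
  have hT0 : 0 < T := by linarith
  obtain ⟨P, hP⟩ : ∃ P, P = T ^ (12 / 5 * (σ - 1 / 2)) := ⟨_, rfl⟩
  have hP0 : 0 < P := hP ▸ Real.rpow_pos_of_pos hT0 _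
  have hpt : ∀ ρ ∈ Z, P ≤ K ^ 4 * T ^ (1 / 5 : ℝ) * (J ^ 3 * quartAvg ρ.im) := fun ρ hρ => by
    have h1 := pow_le_pow_left₀ (Real.rpow_nonneg hT0.le _) (hZ ρ hρ).2.2 4
    rw [← Real.rpow_mul_natCast hT0.le, mul_pow, mul_pow,
      show 3 / 5 * (σ - 1 / 2) * ((4 : ℕ) : ℝ) = 12 / 5 * (σ - 1 / 2) by push_cast; ring,
      ← hP] at h1
    refine h1.trans (mul_le_mul (mul_le_mul_of_nonneg_left ?_ (by positivity))
      (hJ ▸ critAvg_pow_le ρ.im) (pow_nonneg (critAvg_nonneg _) 4) (by positivity))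
    rw [show √(X : ℝ) ^ 4 = (√(X : ℝ) * √(X : ℝ)) ^ 2 by ring,
      Real.mul_self_sqrt (Nat.cast_nonneg X)]
    refine (pow_le_pow_left₀ (Nat.cast_nonneg X) hX 2).trans (le_of_eq ?_)
    rw [← Real.rpow_mul_natCast hT0.le]
    norm_num
  have hsum : P * ∑ ρ ∈ Z, (zeroWeight ρ : ℝ) ≤
      K ^ 4 * T ^ (1 / 5 : ℝ) * (J ^ 3 * (C * (T * Real.log T ^ 5))) := by
    rw [mul_sum]
    refine (sum_le_sum (g := fun ρ => K ^ 4 * T ^ (1 / 5 : ℝ) *
      (J ^ 3 * ((zeroWeight ρ : ℝ) * quartAvg ρ.im))) fun ρ hρ => ?_).trans ?_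
    · refine (mul_le_mul_of_nonneg_right (hpt ρ hρ) (Nat.cast_nonneg _)).trans (le_of_eq ?_)
      ring
    · rw [← mul_sum, ← mul_sum]
      exact mul_le_mul_of_nonneg_left (mul_le_mul_of_nonneg_left
        (h T Z hT fun ρ hρ => ⟨(hZ ρ hρ).1, (hZ ρ hρ).2.1⟩) (by positivity)) (by positivity)
  refine le_of_mul_le_mul_left (hsum.trans (le_of_eq ?_)) hP0
  have e : P * T ^ (12 / 5 * (1 - σ)) = T ^ (1 / 5 : ℝ) * T := by
    rw [hP, ← Real.rpow_add hT0, ← Real.rpow_add_one hT0.ne']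
    congr 1
    ring
  linear_combination (-(C * J ^ 3 * K ^ 4 * Real.log T ^ 5)) * e

end FA.Huxley

end
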