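import Fermat.Agent.Huxley.LargeValues
import Fermat.Agent.Huxley.ClassTwo

/-!
# The first class

The zeros at which a block of length `U` with divisor bounded coefficients is not small: the block
is raised to the least power of length at least `T ^ (4/5)`; then the mean value theorem for
`σ ≤ 3/4` and Huxley's large values theorem for `σ > 3/4`.
-/

set_option autoImplicit false

noncomputable section

namespace FA.Huxley

open Finset Complex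
open FA.ThreePrimes (logOne one_le_logOne)
open FA.HuaCubes (tauPow)
open FA.ZeroFree (ell ell_pos ell_mono)
open FA.RiemannMangoldt FA.ExplicitFormula
open FA.Hoheisel (piece piece_eq blockSum blockSum_nonneg exists_piece_sample sum_dyadic)
open scoped Real

theorem tauPow_le_tauPow {e f : ℕ} (he : e ≠ 0) (hef : e ≤ f) (n : ℕ) :
    tauPow e n ≤ tauPow f n := by
  rcases Nat.eq_zero_or_pos n with rfl | hn
  · simp [tauPow, he, show f ≠ 0 by omega]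
  · exact pow_le_pow_right₀ (Nat.one_le_cast.2 (card_pos.2
      (Nat.nonempty_divisors.2 hn.ne'))) hef

/-- The power to which a block is raised. -/
theorem exists_power {T : ℝ} {U : ℕ} (hT : (2 : ℝ) ^ 90 ≤ T) (hU1 : T ^ (1 / 10 : ℝ) / 2 ≤ U)
    (hU2 : (U : ℝ) ≤ 2 * T ^ (3 / 5 : ℝ)) :
    ∃ p : ℕ, p ≤ 8 ∧ T ^ (4 / 5 : ℝ) ≤ (U : ℝ) ^ (p + 1) ∧
      (U : ℝ) ^ (p + 1) ≤ 4 * T ^ (6 / 5 : ℝ) := by
  have hT0 : 0 < T := lt_of_lt_of_le (by norm_num) hT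
  have hT1 : 1 ≤ T := le_trans (one_le_pow₀ (by norm_num)) hT
  have hten : (2 : ℝ) ^ 9 ≤ T ^ (1 / 10 : ℝ) := by
    refine le_trans ?_ (Real.rpow_le_rpow (by positivity) hT (by norm_num))
    rw [← Real.rpow_natCast, ← Real.rpow_natCast 2 90, ← Real.rpow_mul two_pos.le]
    norm_num
  have hU : 1 ≤ (U : ℝ) := by linarith
  have h9 : T ^ (4 / 5 : ℝ) ≤ (U : ℝ) ^ 9 := by
    refine le_trans ?_ (pow_le_pow_left₀ (by positivity) hU1 9)
    rw [div_pow, le_div_iff₀ (by positivity), ← Real.rpow_mul_natCast hT0.le]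
    calc T ^ (4 / 5 : ℝ) * 2 ^ 9 ≤ T ^ (4 / 5 : ℝ) * T ^ (1 / 10 : ℝ) := by gcongr
      _ = _ := by rw [← Real.rpow_add hT0]; norm_num
  have hex : ∃ p : ℕ, T ^ (4 / 5 : ℝ) ≤ (U : ℝ) ^ (p + 1) := ⟨8, h9⟩
  classical
  refine ⟨Nat.find hex, Nat.find_min' hex h9, Nat.find_spec hex, ?_⟩
  obtain ⟨p, hp⟩ : ∃ p, p = Nat.find hex := ⟨_, rfl⟩
  rw [← hp]
  have h65 : T ^ (3 / 5 : ℝ) * T ^ (3 / 5 : ℝ) = T ^ (6 / 5 : ℝ) := by
    rw [← Real.rpow_add hT0]; norm_num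
  rcases Nat.lt_or_ge p 2 with h | h
  · calc (U : ℝ) ^ (p + 1) ≤ (U : ℝ) ^ 2 := pow_le_pow_right₀ hU (by omega)
      _ ≤ (2 * T ^ (3 / 5 : ℝ)) ^ 2 := pow_le_pow_left₀ (by positivity) hU2 2
      _ = _ := by rw [← h65]; ring
  · have hlt : (U : ℝ) ^ (p - 1 + 1) < T ^ (4 / 5 : ℝ) :=
      not_le.1 (Nat.find_min hex (show p - 1 < Nat.find hex by omega))
    rw [show p - 1 + 1 = p by omega] at hlt
    have hUs : (U : ℝ) ≤ T ^ (2 / 5 : ℝ) := by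
      refine le_of_pow_le_pow_left₀ two_ne_zero (by positivity) ?_
      rw [← Real.rpow_mul_natCast hT0.le]
      exact (pow_le_pow_right₀ hU h).trans (hlt.le.trans (le_of_eq (by norm_num)))
    calc (U : ℝ) ^ (p + 1) = (U : ℝ) ^ p * U := pow_succ _ _
      _ ≤ T ^ (4 / 5 : ℝ) * T ^ (2 / 5 : ℝ) := mul_le_mul hlt.le hUs (by positivity) (by positivity)
      _ = T ^ (6 / 5 : ℝ) := by rw [← Real.rpow_add hT0]; norm_num
      _ ≤ _ := le_mul_of_one_le_left (by positivity) (by norm_num)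

/-- A negative power of a length at least `T ^ (4/5)`. -/
theorem rpow_low_le {T H e σ : ℝ} (hT : 1 ≤ T) (hH : T ^ (4 / 5 : ℝ) ≤ H) (he : e ≤ 0)
    (h : 1 + 4 / 5 * e ≤ 12 / 5 * (1 - σ)) : T * H ^ e ≤ T ^ (12 / 5 * (1 - σ)) := by
  have hT0 : 0 < T := by linarith
  refine (mul_le_mul_of_nonneg_left (Real.rpow_le_rpow_of_nonpos (by positivity) hH he)
    hT0.le).trans ?_
  rw [← Real.rpow_mul hT0.le]
  refine le_trans (le_of_eq ?_) (Real.rpow_le_rpow_of_exponent_le hT h)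
  rw [Real.rpow_add hT0, Real.rpow_one]

theorem rpow_high_le {T H c σ : ℝ} (hT : 0 ≤ T) (hH0 : 0 ≤ H) (hc : 1 ≤ c)
    (hH : H ≤ c * T ^ (6 / 5 : ℝ)) (hσ : 1 / 2 ≤ σ) (hσ1 : σ ≤ 1) :
    H ^ (2 - 2 * σ) ≤ c * T ^ (12 / 5 * (1 - σ)) := by
  refine (Real.rpow_le_rpow hH0 hH (by linarith)).trans ?_
  rw [Real.mul_rpow (by linarith) (by positivity), ← Real.rpow_mul hT,
    show 6 / 5 * (2 - 2 * σ) = 12 / 5 * (1 - σ) by ring]
  exact mul_le_mul_of_nonneg_right (Real.rpow_le_self_of_one_le hc (by linarith)) (by positivity)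

/-- **The count of the first class.** -/
theorem exists_classOne (κ B : ℝ) (hκ : 1 ≤ κ) (hB : 1 ≤ B) : ∃ C, 0 ≤ C ∧ ∃ A : ℕ,
    ∀ (U : ℕ) (c : ℕ → ℂ) (σ T : ℝ) (Z : Finset ℂ), (2 : ℝ) ^ 90 ≤ T →
      T ^ (1 / 10 : ℝ) / 2 ≤ U → (U : ℝ) ≤ 2 * T ^ (3 / 5 : ℝ) →
      (∀ n, ‖c n‖ ≤ B * n.divisors.card) → 1 / 2 ≤ σ → σ ≤ 1 →
      (∀ ρ ∈ Z, xiFn ρ = 0 ∧ |ρ.im| ≤ T ∧ σ ≤ ρ.re ∧
        1 ≤ κ * Real.log T * ‖piece U c ρ.re ρ.im‖) →
      ∑ ρ ∈ Z, (zeroWeight ρ : ℝ) ≤ C * T ^ (12 / 5 * (1 - σ)) * Real.log T ^ A := by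
  obtain ⟨Cs, hCs, hsamp⟩ := exists_piece_sample
  obtain ⟨Cb, hCb, hblocks⟩ := exists_sum_blocks
  obtain ⟨e, he⟩ : ∃ e : ℕ, e = 17 := ⟨_, rfl⟩
  obtain ⟨E, hE⟩ : ∃ E : ℕ, E = 2 ^ (2 * e) + 4 := ⟨_, rfl⟩
  obtain ⟨D, hD⟩ : ∃ D, D = B ^ 9 := ⟨_, rfl⟩
  have hD1 : 1 ≤ D := hD ▸ one_le_pow₀ hB
  obtain ⟨Q₀, hQ₀⟩ : ∃ Q₀ : ℝ, Q₀ = 2 ^ 40 * (2 ^ 9 * D ^ 2 * 4 ^ E) * κ ^ 18 := ⟨_, rfl⟩
  refine ⟨81 * (Cs * 2) * (4 * D ^ 2 * 4 ^ E) * κ ^ 18 * (1 + 2 * 2 ^ 12) +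
    Cb * 2 * (40 * Q₀ ^ 3), by rw [hQ₀]; positivity, 3 * (E + 19) + 1,
    fun U c σ T Z hT hU1 hU2 hc hσ hσ1 hZ => ?_⟩
  obtain ⟨P, hP⟩ : ∃ P, P = T ^ (12 / 5 * (1 - σ)) := ⟨_, rfl⟩
  obtain ⟨L, hL⟩ : ∃ L, L = Real.log T := ⟨_, rfl⟩
  rw [← hP, ← hL]
  have hT11 : 11 ≤ T := le_trans (by norm_num) hT
  have hT1 : 1 ≤ T := by linarith
  have hT0 : 0 < T := by linarith
  have hP0 : 0 ≤ P := hP ▸ Real.rpow_nonneg hT0.le _
  have hL2 : 2 ≤ L := hL ▸ two_le_log hT11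
  obtain ⟨p, hp8, hlo, hhi⟩ := exists_power hT hU1 hU2
  have hU0 : 0 < U := by
    refine Nat.cast_pos.1 (lt_of_lt_of_le ?_ hU1)
    positivity
  obtain ⟨H, hH⟩ : ∃ H : ℕ, H = U ^ (p + 1) := ⟨_, rfl⟩
  obtain ⟨M, hM⟩ : ∃ M : ℕ, M = H * 2 ^ (p + 1) := ⟨_, rfl⟩
  have hM' : (2 * U) ^ (p + 1) = M := by rw [hM, hH, mul_pow, mul_comm]
  have hHR : (H : ℝ) = (U : ℝ) ^ (p + 1) := by rw [hH]; push_cast; rfl
  rw [← hHR] at hlo hhi
  have hH1 : 1 ≤ H := hH ▸ Nat.one_le_pow _ _ hU0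
  have hH0 : (0 : ℝ) < H := Nat.cast_pos.2 hH1
  have hMH : (M : ℝ) ≤ 2 ^ 9 * H := by
    rw [hM]; push_cast; rw [mul_comm]
    exact mul_le_mul_of_nonneg_right (pow_le_pow_right₀ one_le_two (by omega)) hH0.le
  obtain ⟨b, hb⟩ : ∃ b, b = powCoeff U c p := ⟨_, rfl⟩
  have hbn : ∀ n, ‖b n‖ ≤ D * tauPow e n := fun n => by
    rw [hb, hD, he]
    exact (norm_powCoeff_le (by linarith) hc p n).trans (mul_le_mul
      (pow_le_pow_right₀ hB (by omega)) (tauPow_le_tauPow (by omega) (by omega) n)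
      (pow_nonneg (Nat.cast_nonneg _) _) (by positivity))
  have hlog : ∀ n : ℕ, (n : ℝ) ≤ 2 ^ 12 * T ^ (6 / 5 : ℝ) → logOne n ≤ 4 * L := fun n hn => by
    rcases Nat.eq_zero_or_pos n with rfl | hn0
    · simp [logOne]; linarith
    have h1 : Real.log n ≤ Real.log (T ^ 3) := by
      refine Real.log_le_log (Nat.cast_pos.2 hn0) (hn.trans ?_)
      have h2 : T ^ (6 / 5 : ℝ) ≤ T ^ 2 := by
        rw [← Real.rpow_natCast]
        exact Real.rpow_le_rpow_of_exponent_le hT1 (by norm_num)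
      rw [show T ^ 3 = T * T ^ 2 by ring]
      exact mul_le_mul (le_trans (by norm_num) hT) h2 (by positivity) hT0.le
    rw [Real.log_pow, ← hL] at h1
    push_cast at h1
    rw [logOne]
    linarith
  obtain ⟨W, hW⟩ : ∃ W, W = (κ * L) ^ 9 := ⟨_, rfl⟩
  have hκL : 1 ≤ κ * L := one_le_mul_of_one_le_of_one_le hκ (by linarith)
  have hW1 : 1 ≤ W := hW ▸ one_le_pow₀ hκL
  have hW2 : W ^ 2 = κ ^ 18 * L ^ 18 := by rw [hW]; ring
  have hbig : ∀ ρ ∈ Z, 1 ≤ W * ‖∑ n ∈ Ioc H M, b n * (1 / (n : ℂ) ^ ρ)‖ := fun ρ hρ => by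
    have h := one_le_pow₀ (n := p + 1) (hL ▸ (hZ ρ hρ).2.2.2)
    rw [mul_pow, ← norm_pow, piece_pow, hM', ← hH, ← hb] at h
    refine h.trans (mul_le_mul_of_nonneg_right ?_ (norm_nonneg _))
    rw [hW]
    exact pow_le_pow_right₀ hκL (by omega)
  have hell : ell T ≤ 2 * L := hL ▸ ell_le_two_log hT11
  have hsum0 : (0 : ℝ) ≤ ∑ ρ ∈ Z, (zeroWeight ρ : ℝ) := sum_nonneg fun _ _ => Nat.cast_nonneg _
  rcases le_or_gt σ (3 / 4) with hmod | hlarge
  · have hblock : ∀ i ∈ range (p + 1), ∑ ρ ∈ Z, (zeroWeight ρ : ℝ) *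
        ‖piece (H * 2 ^ i) b ρ.re ρ.im‖ ^ 2 ≤
          Cs * 2 * (4 * D ^ 2 * 4 ^ E) * (1 + 2 * 2 ^ 12) * P * L ^ (E + 1) := by
      intro i hi
      obtain ⟨V, hV⟩ : ∃ V : ℕ, V = H * 2 ^ i := ⟨_, rfl⟩
      rw [← hV]
      have hHV : H ≤ V := hV ▸ Nat.le_mul_of_pos_right H (by positivity)
      have hV0 : (0 : ℝ) < V := Nat.cast_pos.2 (lt_of_lt_of_le hH1 hHV)
      have hVT : (V : ℝ) ≤ 2 ^ 11 * T ^ (6 / 5 : ℝ) := by
        rw [hV]; push_cast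
        calc (H : ℝ) * 2 ^ i ≤ 4 * T ^ (6 / 5 : ℝ) * 2 ^ 9 := mul_le_mul hhi
              (pow_le_pow_right₀ one_le_two (by have := mem_range.1 hi; omega)) (by positivity)
              (by positivity)
          _ = _ := by ring
      refine (hsamp V b σ T Z hT1 (fun ρ hρ => ⟨(hZ ρ hρ).1, (hZ ρ hρ).2.1, (hZ ρ hρ).2.2.1⟩)
        (by linarith)).trans ?_
      have hbs : blockSum V b σ + blockSum V (fun n => -(Real.log n : ℂ) * b n) σ ≤
          4 * D ^ 2 * (4 * L) ^ E * (V : ℝ) ^ (1 - 2 * σ) := by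
        refine (blockSum_tau_le (lt_of_lt_of_le hH1 hHV) (by linarith) hbn).trans ?_
        rw [← hE]
        refine mul_le_mul_of_nonneg_right (mul_le_mul_of_nonneg_left (pow_le_pow_left₀
          (zero_le_one.trans (one_le_logOne _)) (hlog _ ?_) E) (by positivity)) (by positivity)
        push_cast
        linarith
      have e1 : (T + ((2 * V : ℕ) : ℝ)) * (V : ℝ) ^ (1 - 2 * σ) ≤ (1 + 2 * 2 ^ 12) * P := by
        push_cast
        have a1 : T * (V : ℝ) ^ (1 - 2 * σ) ≤ P := hP ▸ rpow_low_le hT1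
          (hlo.trans (Nat.cast_le.2 hHV)) (by linarith) (by linarith)
        have a2 : (V : ℝ) * (V : ℝ) ^ (1 - 2 * σ) ≤ 2 ^ 11 * P := by
          rw [← Real.rpow_one_add' hV0.le (by linarith), hP,
            show 1 + (1 - 2 * σ) = 2 - 2 * σ by ring]
          exact rpow_high_le hT0.le hV0.le (one_le_pow₀ one_le_two) hVT hσ hσ1
        linarith
      have hb0 := add_nonneg (blockSum_nonneg V b σ)
        (blockSum_nonneg V (fun n => -(Real.log n : ℂ) * b n) σ)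
      calc Cs * ell T * ((T + ((2 * V : ℕ) : ℝ)) *
            (blockSum V b σ + blockSum V (fun n => -(Real.log n : ℂ) * b n) σ))
          ≤ Cs * (2 * L) * ((T + ((2 * V : ℕ) : ℝ)) *
              (4 * D ^ 2 * (4 * L) ^ E * (V : ℝ) ^ (1 - 2 * σ))) :=
            mul_le_mul (mul_le_mul_of_nonneg_left hell hCs)
              (mul_le_mul_of_nonneg_left hbs (by positivity))
              (mul_nonneg (by positivity) hb0) (by positivity)
        _ = Cs * 2 * (4 * D ^ 2 * 4 ^ E) * L ^ (E + 1) *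
            ((T + ((2 * V : ℕ) : ℝ)) * (V : ℝ) ^ (1 - 2 * σ)) := by ring
        _ ≤ Cs * 2 * (4 * D ^ 2 * 4 ^ E) * L ^ (E + 1) * ((1 + 2 * 2 ^ 12) * P) :=
            mul_le_mul_of_nonneg_left e1 (by positivity)
        _ = _ := by ring
    have hpt : ∀ ρ ∈ Z, (zeroWeight ρ : ℝ) ≤ W ^ 2 * (p + 1 : ℕ) *
        ∑ i ∈ range (p + 1), (zeroWeight ρ : ℝ) * ‖piece (H * 2 ^ i) b ρ.re ρ.im‖ ^ 2 := by
      intro ρ hρ
      rw [← mul_sum, mul_left_comm]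
      refine le_mul_of_one_le_right (Nat.cast_nonneg _) ?_
      refine (one_le_pow₀ (n := 2) (hbig ρ hρ)).trans ?_
      rw [mul_pow, mul_assoc]
      refine mul_le_mul_of_nonneg_left ?_ (sq_nonneg W)
      rw [hM, ← sum_dyadic H (p + 1) fun n => b n * (1 / (n : ℂ) ^ ρ)]
      simp only [piece_eq]
      refine (pow_le_pow_left₀ (norm_nonneg _) (norm_sum_le _ _) 2).trans ?_
      exact sq_sum_le_card_mul_sum_sq.trans (le_of_eq (by rw [card_range]))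
    refine ((sum_le_sum hpt).trans (le_of_eq (by rw [← mul_sum, sum_comm]))).trans ?_
    refine (mul_le_mul_of_nonneg_left ((sum_le_card_nsmul _ _ _ hblock).trans (le_of_eq
      (nsmul_eq_mul _ _))) (by positivity)).trans ?_
    rw [card_range, hW2]
    have hp9 : ((p + 1 : ℕ) : ℝ) ≤ 9 := by exact_mod_cast (show p + 1 ≤ 9 by omega)
    have hLp : L ^ (18 + (E + 1)) ≤ L ^ (3 * (E + 19) + 1) :=
      pow_le_pow_right₀ (by linarith) (by omega)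
    have h2 : 0 ≤ Cb * 2 * (40 * Q₀ ^ 3) * P * L ^ (3 * (E + 19) + 1) := by
      rw [hQ₀]; positivity
    calc κ ^ 18 * L ^ 18 * ((p + 1 : ℕ) : ℝ) *
          (((p + 1 : ℕ) : ℝ) * (Cs * 2 * (4 * D ^ 2 * 4 ^ E) * (1 + 2 * 2 ^ 12) * P * L ^ (E + 1)))
        = ((p + 1 : ℕ) : ℝ) ^ 2 * (κ ^ 18 * (Cs * 2 * (4 * D ^ 2 * 4 ^ E)) * (1 + 2 * 2 ^ 12) *
            P) * L ^ (18 + (E + 1)) := by ring
      _ ≤ 9 ^ 2 * (κ ^ 18 * (Cs * 2 * (4 * D ^ 2 * 4 ^ E)) * (1 + 2 * 2 ^ 12) * P) *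
            L ^ (3 * (E + 19) + 1) := by gcongr
      _ ≤ _ := by linarith
  · obtain ⟨S, hS⟩ : ∃ S : Finset ℕ, S = Z.image fun ρ => ⌊|ρ.im|⌋₊ := ⟨_, rfl⟩
    have hex : ∀ k ∈ S, ∃ ρ, ρ ∈ Z ∧ ⌊|ρ.im|⌋₊ = k := fun k hk => by
      rw [hS, mem_image] at hk
      exact hk
    choose! s hs using hex
    obtain ⟨g, hg⟩ : ∃ g : ℝ, g = 2 ^ 9 * D ^ 2 * (4 * L) ^ E := ⟨_, rfl⟩
    have hg0 : 0 < g := hg ▸ by positivity
    have hl4 : logOne M ≤ 4 * L := hlog M (hMH.trans (by linarith))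
    have hG : ∑ n ∈ Icc 1 M, (n : ℝ) ^ (-(2 * σ)) * ‖b n‖ ^ 2 ≤
        g * (H : ℝ) ^ (1 - 2 * σ) := by
      rw [← sum_subset (s₁ := Ioc H M) (fun n hn => by
        rw [mem_Ioc] at hn; rw [mem_Icc]; omega) fun n hn hn' => by
          rw [hb, powCoeff_eq_zero U c p n (by rwa [hM', ← hH]), norm_zero]
          ring]
      refine (sum_sq_tau_le hH1 (by linarith) hbn).trans ?_
      calc D ^ 2 * logOne M ^ 2 ^ (2 * e) * M * (H : ℝ) ^ (-(2 * σ))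
          ≤ D ^ 2 * (4 * L) ^ E * (2 ^ 9 * H) * (H : ℝ) ^ (-(2 * σ)) := by
            refine mul_le_mul_of_nonneg_right (mul_le_mul (mul_le_mul_of_nonneg_left ?_
              (sq_nonneg D)) hMH (Nat.cast_nonneg M) (by positivity)) (by positivity)
            exact (pow_le_pow_right₀ (one_le_logOne M) (hE ▸ Nat.le_add_right _ 4)).trans
              (pow_le_pow_left₀ (zero_le_one.trans (one_le_logOne M)) hl4 E)
        _ = _ := by
            rw [hg, show (1 : ℝ) - 2 * σ = 1 + -(2 * σ) by ring, Real.rpow_add hH0, Real.rpow_one]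
            ring
    have hlv := large_values S s (σ := σ) (T := T) (V := 1 / W)
      (G := g * (H : ℝ) ^ (1 - 2 * σ)) (by positivity) (by positivity) hT1 M b
      (fun k hk => ⟨(hZ _ (hs k hk).1).2.2.1, (hZ _ (hs k hk).1).2.1⟩)
      (fun x hx y hy h => by
        have e1 := (hs x (mem_coe.1 hx)).2
        have e2 := (hs y (mem_coe.1 hy)).2
        exact e1.symm.trans (h.trans e2))
      (fun k hk => by
        rw [div_le_iff₀' (by linarith : (0 : ℝ) < W)]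
        refine (hbig _ (hs k hk).1).trans (le_of_eq ?_)
        congr 2
        refine sum_subset (fun n hn => by
          rw [mem_Ioc] at hn; rw [mem_Icc]; omega) fun n hn hn' => by
            rw [hb, powCoeff_eq_zero U c p n (by rwa [hM', ← hH]), zero_mul])
      hG
    obtain ⟨Q, hQ⟩ : ∃ Q, Q = 2 ^ 40 * g * W ^ 2 * L := ⟨_, rfl⟩
    have hQ0 : Q₀ * L ^ (E + 19) = Q := by rw [hQ, hg, hQ₀, hW2]; ring
    have hgW : 0 ≤ g * W ^ 2 * L := by positivity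
    have hQ1 : 1 ≤ Q := by
      have h1 : (1 : ℝ) ≤ g := hg ▸ one_le_mul_of_one_le_of_one_le (one_le_mul_of_one_le_of_one_le
        (one_le_pow₀ one_le_two) (one_le_pow₀ hD1)) (one_le_pow₀ (by linarith))
      rw [hQ]
      exact one_le_mul_of_one_le_of_one_le (one_le_mul_of_one_le_of_one_le
        (one_le_mul_of_one_le_of_one_le (one_le_pow₀ one_le_two) h1) (one_le_pow₀ hW1))
          (by linarith)
    have hlk : (Nat.log 2 M : ℝ) + 1 ≤ 8 * L := by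
      have hM0 : M ≠ 0 := hM ▸ Nat.mul_ne_zero (by omega) (by positivity)
      have h := Real.log_le_log (by positivity : (0 : ℝ) < (2 : ℝ) ^ Nat.log 2 M)
        (show (2 : ℝ) ^ Nat.log 2 M ≤ (M : ℝ) by exact_mod_cast Nat.pow_log_le_self 2 hM0)
      rw [Real.log_pow] at h
      rw [logOne] at hl4
      nlinarith [mul_le_mul_of_nonneg_left Real.log_two_gt_d9.le
        (Nat.cast_nonneg (α := ℝ) (Nat.log 2 M))]
    have hlt : 1 + Real.log (T + 2) ≤ 3 * L := by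
      have : Real.log (T + 2) ≤ Real.log (T ^ 2) := Real.log_le_log (by positivity) (by nlinarith)
      rw [Real.log_pow, ← hL] at this
      push_cast at this
      linarith
    have hq : 174 * (g * (H : ℝ) ^ (1 - 2 * σ)) * ((Nat.log 2 M : ℝ) + 1) / (1 / W) ^ 2 ≤
        Q * (H : ℝ) ^ (1 - 2 * σ) := by
      rw [one_div, inv_pow, div_inv_eq_mul]
      calc 174 * (g * (H : ℝ) ^ (1 - 2 * σ)) * ((Nat.log 2 M : ℝ) + 1) * W ^ 2
          ≤ 174 * (g * (H : ℝ) ^ (1 - 2 * σ)) * (8 * L) * W ^ 2 := by gcongr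
        _ = 1392 * (g * W ^ 2 * L) * (H : ℝ) ^ (1 - 2 * σ) := by ring
        _ ≤ 2 ^ 40 * (g * W ^ 2 * L) * (H : ℝ) ^ (1 - 2 * σ) := by gcongr; norm_num
        _ = _ := by rw [hQ]; ring
    have hbE : 1200 * (g * (H : ℝ) ^ (1 - 2 * σ)) * M * (1 + Real.log (T + 2)) / (1 / W) ^ 2 ≤
        Q * (H : ℝ) ^ (2 - 2 * σ) := by
      rw [one_div, inv_pow, div_inv_eq_mul, show (2 : ℝ) - 2 * σ = 1 + (1 - 2 * σ) by ring,
        Real.rpow_add hH0, Real.rpow_one]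
      calc 1200 * (g * (H : ℝ) ^ (1 - 2 * σ)) * M * (1 + Real.log (T + 2)) * W ^ 2
          ≤ 1200 * (g * (H : ℝ) ^ (1 - 2 * σ)) * (2 ^ 9 * H) * (3 * L) * W ^ 2 := by
            gcongr
            linarith [Real.log_nonneg (show (1 : ℝ) ≤ T + 2 by linarith)]
        _ = 3600 * 2 ^ 9 * (g * W ^ 2 * L) * ((H : ℝ) * (H : ℝ) ^ (1 - 2 * σ)) := by ring
        _ ≤ 2 ^ 40 * (g * W ^ 2 * L) * ((H : ℝ) * (H : ℝ) ^ (1 - 2 * σ)) := by gcongr; norm_num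
        _ = _ := by rw [hQ]; ring
    have hcard : (S.card : ℝ) ≤ 40 * Q ^ 3 * P := by
      have a1 : T * (H : ℝ) ^ (2 * (1 - 2 * σ)) ≤ P :=
        hP ▸ rpow_low_le hT1 hlo (by linarith) (by linarith)
      have a2 : T * (H : ℝ) ^ (2 * (1 - 2 * σ) + (2 - 2 * σ)) ≤ P :=
        hP ▸ rpow_low_le hT1 hlo (by linarith) (by linarith)
      have a3 : (H : ℝ) ^ (2 - 2 * σ) ≤ 4 * P :=
        hP ▸ rpow_high_le hT0.le hH0.le (by norm_num) hhi hσ hσ1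
      rw [Real.rpow_add hH0] at a2
      obtain ⟨x, hx⟩ : ∃ x, x = T * (H : ℝ) ^ (2 * (1 - 2 * σ)) := ⟨_, rfl⟩
      have hq2 : 4 * T * (174 * (g * (H : ℝ) ^ (1 - 2 * σ)) * ((Nat.log 2 M : ℝ) + 1) /
          (1 / W) ^ 2) ^ 2 ≤ 4 * Q ^ 2 * x := by
        refine (mul_le_mul_of_nonneg_left (pow_le_pow_left₀ (by positivity) hq 2)
          (by positivity)).trans (le_of_eq ?_)
        rw [hx, mul_comm (2 : ℝ) (1 - 2 * σ), Real.rpow_mul hH0.le, Real.rpow_two]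
        ring
      rw [← mul_assoc, ← hx] at a2
      rw [← hx] at a1
      have hx0 : 0 ≤ x := hx ▸ by positivity
      have hl2 : 0 ≤ 1 + Real.log (T + 2) := by
        linarith [Real.log_nonneg (show (1 : ℝ) ≤ T + 2 by linarith)]
      refine hlv.trans ((add_le_add hq2 (mul_le_mul (add_le_add_left hq2 2) hbE
        (div_nonneg (mul_nonneg (by positivity) hl2) (by positivity)) (by positivity))).trans ?_)
      have b1 : Q ^ 2 ≤ Q ^ 3 := pow_le_pow_right₀ hQ1 (by norm_num)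
      have b2 : Q ≤ Q ^ 3 := le_self_pow₀ hQ1 (by norm_num)
      have c1 := mul_le_mul b1 a1 hx0 (pow_nonneg (zero_le_one.trans hQ1) 3)
      have c2 := mul_le_mul_of_nonneg_left a2 (pow_nonneg (zero_le_one.trans hQ1) 3)
      have c3 := mul_le_mul b2 a3 (by positivity) (pow_nonneg (zero_le_one.trans hQ1) 3)
      have c4 : 0 ≤ Q ^ 3 * P := mul_nonneg (pow_nonneg (zero_le_one.trans hQ1) 3) hP0
      linarith
    have hwt : ∑ ρ ∈ Z, (zeroWeight ρ : ℝ) ≤ Cb * (2 * L) * S.card := by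
      have h := hblocks Z S (fun _ => 1) (fun _ => 1) (fun ρ hρ =>
        ⟨(hZ ρ hρ).1, hS ▸ mem_image_of_mem _ hρ, le_rfl⟩) fun _ _ => zero_le_one
      simp only [mul_one] at h
      refine h.trans ?_
      rw [mul_assoc]
      refine mul_le_mul_of_nonneg_left ((sum_le_card_nsmul _ _ (2 * L) fun k hk => ?_).trans
        (le_of_eq (by rw [nsmul_eq_mul, mul_comm]))) hCb
      refine le_trans (ell_mono ?_) hell
      rw [Nat.abs_cast, abs_of_pos hT0, ← (hs k hk).2]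
      exact (Nat.floor_le (abs_nonneg _)).trans (hZ _ (hs k hk).1).2.1
    refine hwt.trans ((mul_le_mul_of_nonneg_left hcard (by positivity)).trans ?_)
    rw [← hQ0]
    have h2 : 0 ≤ 81 * (Cs * 2) * (4 * D ^ 2 * 4 ^ E) * κ ^ 18 * (1 + 2 * 2 ^ 12) * P *
        L ^ (3 * (E + 19) + 1) := by positivity
    refine le_trans (le_of_eq ?_) (mul_le_mul_of_nonneg_right (mul_le_mul_of_nonneg_right
      (le_add_of_nonneg_left (by positivity)) hP0) (by positivity))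
    ring

end FA.Huxley

end
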