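import Fermat.Agent.HuaCubes.Divisors
import Fermat.Agent.Hoheisel.Ingham

/-!
# Powers of a block of a Dirichlet series

The coefficients of the `k`-th power of a block over `(U, 2U]` are supported on `(U^k, (2U)^k]` and
bounded by a power of the divisor function, so their weighted squares sum to a power of the
logarithm times the length.
-/

set_option autoImplicit false

noncomputable section

namespace FA.Huxley

open Finset
open FA.ThreePrimes (logOne one_le_logOne)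
open FA.Hoheisel (piece piece_eq blockSum natCast_mul_cpow)
open FA.HuaCubes (tauPow tauPow_nonneg sum_tauPow_le logOne_mono)

/-- The coefficients of the `p + 1`-st power of the block over `(U, 2U]`. -/
def powCoeff (U : ℕ) (c : ℕ → ℂ) : ℕ → ℕ → ℂ
  | 0, n => if n ∈ Ioc U (2 * U) then c n else 0
  | p + 1, n => ∑ x ∈ n.divisorsAntidiagonal, powCoeff U c 0 x.1 * powCoeff U c p x.2

theorem powCoeff_eq_zero (U : ℕ) (c : ℕ → ℂ) : ∀ p n : ℕ,
    n ∉ Ioc (U ^ (p + 1)) ((2 * U) ^ (p + 1)) → powCoeff U c p n = 0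
  | 0, n => fun h => by rw [powCoeff, if_neg (by simpa using h)]
  | p + 1, n => fun h => by
    rw [powCoeff]
    refine sum_eq_zero fun x hx => ?_
    obtain ⟨he, -⟩ := Nat.mem_divisorsAntidiagonal.1 hx
    by_cases h1 : x.1 ∈ Ioc U (2 * U)
    · rw [powCoeff_eq_zero U c p x.2 fun h2 => h ?_, mul_zero]
      rw [mem_Ioc] at h1 h2 ⊢
      rw [← he, pow_succ' U (p + 1), pow_succ' (2 * U) (p + 1)]
      exact ⟨Nat.mul_lt_mul'' h1.1 h2.1, Nat.mul_le_mul h1.2 h2.2⟩
    · rw [powCoeff, if_neg h1, zero_mul]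

theorem norm_powCoeff_le {U : ℕ} {c : ℕ → ℂ} {B : ℝ} (hB : 0 ≤ B)
    (hc : ∀ n, ‖c n‖ ≤ B * n.divisors.card) : ∀ p n : ℕ,
      ‖powCoeff U c p n‖ ≤ B ^ (p + 1) * tauPow (2 * p + 1) n
  | 0, n => by
    rw [powCoeff, pow_one, tauPow, pow_one]
    split_ifs
    · exact hc n
    · simpa using mul_nonneg hB (Nat.cast_nonneg _)
  | p + 1, n => by
    rw [powCoeff]
    refine (norm_sum_le _ _).trans ((sum_le_sum (g := fun _ =>
      B ^ (p + 2) * tauPow (2 * p + 2) n) fun x hx => ?_).trans (le_of_eq ?_))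
    · obtain ⟨he, hn⟩ := Nat.mem_divisorsAntidiagonal.1 hx
      have h1 : (x.1.divisors.card : ℝ) ≤ n.divisors.card := Nat.cast_le.2
        (card_le_card (Nat.divisors_subset_of_dvd hn (he ▸ dvd_mul_right x.1 x.2)))
      have h2 : (x.2.divisors.card : ℝ) ≤ n.divisors.card := Nat.cast_le.2
        (card_le_card (Nat.divisors_subset_of_dvd hn (he ▸ dvd_mul_left x.2 x.1)))
      rw [norm_mul]
      refine (mul_le_mul ((norm_powCoeff_le hB hc 0 x.1).trans (mul_le_mul_of_nonneg_left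
        (le_of_eq_of_le (by rw [tauPow, mul_zero, zero_add, pow_one]) h1) (by positivity)))
        ((norm_powCoeff_le hB hc p x.2).trans (mul_le_mul_of_nonneg_left
        (pow_le_pow_left₀ (Nat.cast_nonneg _) h2 _) (by positivity)))
        (norm_nonneg _) (by positivity)).trans (le_of_eq ?_)
      rw [tauPow]
      ring
    · rw [sum_const, ← Nat.map_div_right_divisors, card_map, nsmul_eq_mul, tauPow, tauPow,
        show 2 * (p + 1) + 1 = (2 * p + 2) + 1 by ring, pow_succ (n.divisors.card : ℝ) (2 * p + 2)]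
      ring

theorem piece_pow (U : ℕ) (c : ℕ → ℂ) (s : ℂ) : ∀ p : ℕ,
    piece U c s.re s.im ^ (p + 1) =
      ∑ n ∈ Ioc (U ^ (p + 1)) ((2 * U) ^ (p + 1)), powCoeff U c p n * (1 / (n : ℂ) ^ s)
  | 0 => by
    simp only [zero_add, pow_one, piece_eq]
    exact sum_congr rfl fun n hn => by rw [powCoeff, if_pos hn]
  | p + 1 => by
    rw [pow_succ, piece_pow U c s p, piece_eq, mul_comm, sum_mul_sum, ← sum_product',
      ← sum_fiberwise_of_maps_to (g := fun x : ℕ × ℕ => x.1 * x.2)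
        (t := Ioc (U ^ (p + 1 + 1)) ((2 * U) ^ (p + 1 + 1))) fun x hx => ?_]
    swap
    · simp only [mem_product, mem_Ioc] at hx ⊢
      rw [pow_succ' U (p + 1), pow_succ' (2 * U) (p + 1)]
      exact ⟨Nat.mul_lt_mul'' hx.1.1 hx.2.1, Nat.mul_le_mul hx.1.2 hx.2.2⟩
    refine sum_congr rfl fun n hn => ?_
    rw [powCoeff, sum_mul]
    symm
    refine (sum_subset (fun x hx => ?_) fun x hx hx' => ?_).symm.trans
      (sum_congr rfl fun x hx => ?_)
    · simp only [mem_filter, mem_product, mem_Ioc] at hx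
      exact Nat.mem_divisorsAntidiagonal.2 ⟨hx.2, fun h => by
        rw [mem_Ioc, h] at hn; omega⟩
    · simp only [mem_filter, mem_product, not_and] at hx'
      obtain ⟨he, -⟩ := Nat.mem_divisorsAntidiagonal.1 hx
      by_cases h1 : x.1 ∈ Ioc U (2 * U)
      · by_cases h2 : x.2 ∈ Ioc (U ^ (p + 1)) ((2 * U) ^ (p + 1))
        · exact absurd he (hx' ⟨h1, h2⟩)
        · rw [powCoeff_eq_zero U c p x.2 h2, mul_zero, zero_mul]
      · rw [powCoeff, if_neg h1, zero_mul, zero_mul]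
    · simp only [mem_filter, mem_product] at hx
      rw [powCoeff, if_pos hx.1.1, ← hx.2, natCast_mul_cpow]
      simp only [one_div, mul_inv]
      ring

/-- **The weighted squares in a block**, for coefficients below a power of the divisor function. -/
theorem blockSum_tau_le {U : ℕ} (hU : 1 ≤ U) {a : ℕ → ℂ} {σ D : ℝ} (hσ : 0 ≤ σ)
    {e : ℕ} (ha : ∀ n, ‖a n‖ ≤ D * tauPow e n) :
    blockSum U a σ + blockSum U (fun n => -(Real.log n : ℂ) * a n) σ ≤
      4 * D ^ 2 * logOne (2 * U) ^ (2 ^ (2 * e) + 4) * (U : ℝ) ^ (1 - 2 * σ) := by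
  have hU0 : (0 : ℝ) < U := Nat.cast_pos.2 hU
  have hΛ : 1 ≤ logOne (2 * U) := one_le_logOne _
  rw [blockSum, blockSum, ← sum_add_distrib]
  refine (sum_le_sum (g := fun n => 2 * logOne (2 * U) ^ 4 * D ^ 2 * (U : ℝ) ^ (-(2 * σ)) *
    tauPow (2 * e) n) fun n hn => ?_).trans ?_
  · obtain ⟨hn1, hn2⟩ := mem_Ioc.1 hn
    have hnU : (U : ℝ) ≤ n := Nat.cast_le.2 hn1.le
    have hl0 : 0 ≤ Real.log n := Real.log_natCast_nonneg n
    have hl : 1 + Real.log n ≤ logOne (2 * U) := logOne_mono hn2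
    have hp : ((n : ℝ) ^ (-σ) * ‖a n‖) ^ 2 ≤
        (U : ℝ) ^ (-(2 * σ)) * (D ^ 2 * tauPow (2 * e) n) := by
      rw [mul_pow]
      refine mul_le_mul ?_ ((pow_le_pow_left₀ (norm_nonneg _) (ha n) 2).trans (le_of_eq ?_))
        (sq_nonneg _) (Real.rpow_nonneg hU0.le _)
      · rw [← Real.rpow_natCast, ← Real.rpow_mul (Nat.cast_nonneg n),
          show (-σ) * ((2 : ℕ) : ℝ) = -(2 * σ) by push_cast; ring]
        exact Real.rpow_le_rpow_of_nonpos hU0 hnU (by linarith)
      · rw [mul_pow, tauPow, tauPow, ← pow_mul]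
        congr 2
        ring
    rw [norm_mul, norm_neg, Complex.norm_real, Real.norm_of_nonneg hl0,
      show ((n : ℝ) ^ (-σ) * (Real.log n * ‖a n‖)) ^ 2 =
        Real.log n ^ 2 * ((n : ℝ) ^ (-σ) * ‖a n‖) ^ 2 by ring]
    have h1 : (1 + Real.log n) ^ 2 ≤ logOne (2 * U) ^ 2 := pow_le_pow_left₀ (by linarith) hl 2
    have h2 : 1 + Real.log n ^ 2 ≤ 2 * logOne (2 * U) ^ 2 := by
      have := one_le_pow₀ (n := 2) hΛ
      have := pow_le_pow_left₀ hl0 (show Real.log n ≤ logOne (2 * U) by linarith) 2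
      linarith
    calc _ = (1 + Real.log n) ^ 2 * (1 + Real.log n ^ 2) * ((n : ℝ) ^ (-σ) * ‖a n‖) ^ 2 := by
          ring
      _ ≤ logOne (2 * U) ^ 2 * (2 * logOne (2 * U) ^ 2) *
          ((U : ℝ) ^ (-(2 * σ)) * (D ^ 2 * tauPow (2 * e) n)) :=
          mul_le_mul (mul_le_mul h1 h2 (by positivity) (by positivity)) hp (sq_nonneg _)
            (by positivity)
      _ = _ := by ring
  · rw [← mul_sum]
    have hd : ∑ n ∈ Ioc U (2 * U), tauPow (2 * e) n ≤
        2 * U * logOne (2 * U) ^ 2 ^ (2 * e) := by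
      refine (sum_le_sum_of_subset_of_nonneg (Ioc_subset_Ioc_left (Nat.zero_le U))
        fun n _ _ => tauPow_nonneg _ n).trans ((sum_tauPow_le (2 * e) (2 * U)).trans ?_)
      push_cast
      exact mul_le_mul_of_nonneg_left (pow_le_pow_right₀ hΛ (Nat.sub_le _ _)) (by positivity)
    refine (mul_le_mul_of_nonneg_left hd (by positivity)).trans (le_of_eq ?_)
    rw [show (1 : ℝ) - 2 * σ = 1 + -(2 * σ) by ring, Real.rpow_add hU0, Real.rpow_one, pow_add]
    ring

/-- The squares of such coefficients, weighted, over `(H, M]`. -/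
theorem sum_sq_tau_le {H M : ℕ} (hH : 1 ≤ H) {a : ℕ → ℂ} {σ D : ℝ} (hσ : 0 ≤ σ)
    {e : ℕ} (ha : ∀ n, ‖a n‖ ≤ D * tauPow e n) :
    ∑ n ∈ Ioc H M, (n : ℝ) ^ (-(2 * σ)) * ‖a n‖ ^ 2 ≤
      D ^ 2 * logOne M ^ 2 ^ (2 * e) * M * (H : ℝ) ^ (-(2 * σ)) := by
  refine (sum_le_sum (g := fun n => (H : ℝ) ^ (-(2 * σ)) * D ^ 2 * tauPow (2 * e) n)
    fun n hn => ?_).trans ?_
  · rw [mul_assoc]
    refine mul_le_mul (Real.rpow_le_rpow_of_nonpos (Nat.cast_pos.2 hH)
      (Nat.cast_le.2 (mem_Ioc.1 hn).1.le) (by linarith))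
      ((pow_le_pow_left₀ (norm_nonneg _) (ha n) 2).trans (le_of_eq ?_)) (sq_nonneg _)
      (by positivity)
    rw [mul_pow, tauPow, tauPow, ← pow_mul]
    congr 2
    ring
  · rw [← mul_sum]
    refine (mul_le_mul_of_nonneg_left ((sum_le_sum_of_subset_of_nonneg
      (Ioc_subset_Ioc_left (Nat.zero_le H)) fun n _ _ => tauPow_nonneg _ n).trans
        ((sum_tauPow_le (2 * e) M).trans (mul_le_mul_of_nonneg_left
          (pow_le_pow_right₀ (one_le_logOne M) (Nat.sub_le _ _)) (Nat.cast_nonneg M))))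
      (by positivity)).trans (le_of_eq ?_)
    ring

end FA.Huxley

end
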