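import Fermat.Agent.Huxley.ClassOne

/-!
# Huxley's zero-density theorem

The zeros with `re ρ ≥ σ`, `|im ρ| ≤ T` number `O (T ^ (12 (1 - σ) / 5) log ^ A T)`: in a band the
two classes, with `X = T ^ (1/10)` and `Y = T ^ (3/5)`.
-/

set_option autoImplicit false

noncomputable section

namespace FA.Huxley

open Finset Complex
open FA.SelbergCLT (cutoff exists_norm_cutoff_le)
open FA.RiemannMangoldt FA.ExplicitFormula
open FA.Hoheisel (piece piece_eq sum_dyadic norm_molCoeff_le countGe exists_countGe_trivial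
  countGe_le_bands exponent_le_log)
open scoped Real

theorem smoothCoeff_eq_zero {X N n : ℕ} (hn : N < n) {l : ℝ}
    (hN : l + 1 / 10 ≤ Real.log (N + 1 : ℕ)) : smoothCoeff X N l n = 0 := by
  rw [smoothCoeff, sub_eq_add_neg, cutoff_vanish hn (by linarith), mul_zero]

theorem smoothSum_eq_pieces {X N J : ℕ} (hJ : N ≤ X * 2 ^ J) {l : ℝ}
    (hN : l + 1 / 10 ≤ Real.log (N + 1 : ℕ)) (s : ℂ) :
    smoothSum X N l s = ∑ j ∈ range J, piece (X * 2 ^ j) (smoothCoeff X N l) s.re s.im := by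
  simp only [piece_eq]
  rw [sum_dyadic X J fun n => smoothCoeff X N l n * (1 / (n : ℂ) ^ s), smoothSum]
  refine sum_subset (Ioc_subset_Ioc_right hJ) fun n hn hn' => ?_
  rw [mem_Ioc] at hn hn'
  rw [smoothCoeff_eq_zero (by omega) hN, zero_mul]

/-- **The band `T/2 < |im ρ| ≤ T`, with Huxley's exponent.** -/
theorem exists_huxley_band : ∃ C, 0 ≤ C ∧ ∃ A : ℕ, ∃ T₀ : ℝ, 1 ≤ T₀ ∧ ∀ σ T : ℝ, T₀ ≤ T →
    7 / 12 ≤ σ → σ ≤ 1 →
    ∑ ρ ∈ ((zerosUpTo T).filter (fun ρ => σ ≤ ρ.re)).filter (fun ρ => T / 2 < |ρ.im|),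
      (zeroWeight ρ : ℝ) ≤ C * T ^ (12 / 5 * (1 - σ)) * Real.log T ^ A := by
  obtain ⟨K, hK, hdich⟩ := exists_dichotomy
  obtain ⟨B, hB, hcut⟩ := exists_norm_cutoff_le
  obtain ⟨C₁, hC₁, A, hone⟩ := exists_classOne 9 B (by norm_num) hB
  obtain ⟨C₂, hC₂, htwo⟩ := exists_classTwo
  refine ⟨C₂ * K ^ 4 + 3 * C₁, by positivity, A + 6, max ((2 : ℝ) ^ 90) (4 * K),
    le_max_of_le_left (one_le_pow₀ one_le_two), fun σ T hT hσ hσ1 => ?_⟩
  have hT90 : (2 : ℝ) ^ 90 ≤ T := (le_max_left _ _).trans hT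
  have hTK : 4 * K ≤ T := (le_max_right _ _).trans hT
  have hT11 : 11 ≤ T := le_trans (by norm_num) hT90
  have hT1 : 1 ≤ T := by linarith
  have hT0 : 0 < T := by linarith
  obtain ⟨L, hL⟩ : ∃ L, L = Real.log T := ⟨_, rfl⟩
  have hL2 : 2 ≤ L := hL ▸ two_le_log hT11
  obtain ⟨P, hP⟩ : ∃ P, P = T ^ (12 / 5 * (1 - σ)) := ⟨_, rfl⟩
  have hP0 : 0 ≤ P := hP ▸ Real.rpow_nonneg hT0.le _
  rw [← hL, ← hP]
  -- the parameters
  have hten : 1 ≤ T ^ (1 / 10 : ℝ) := Real.one_le_rpow hT1 (by norm_num)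
  obtain ⟨X, hX⟩ : ∃ X, X = ⌊T ^ (1 / 10 : ℝ)⌋₊ := ⟨_, rfl⟩
  have hX2 : (X : ℝ) ≤ T ^ (1 / 10 : ℝ) := hX ▸ Nat.floor_le (by positivity)
  have hX1 : 1 ≤ X := hX ▸ Nat.floor_pos.2 hten
  have hXlo : T ^ (1 / 10 : ℝ) / 2 ≤ X := by
    have h1 := Nat.lt_floor_add_one (T ^ (1 / 10 : ℝ))
    rw [← hX] at h1
    linarith [show (1 : ℝ) ≤ X from Nat.one_le_cast.2 hX1]
  obtain ⟨l, hl⟩ : ∃ l, l = 3 / 5 * L := ⟨_, rfl⟩
  have hel : Real.exp l = T ^ (3 / 5 : ℝ) := by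
    rw [hl, hL, Real.rpow_def_of_pos hT0, mul_comm]
  obtain ⟨N, hN⟩ : ∃ N, N = ⌊Real.exp (l + 1 / 10)⌋₊ := ⟨_, rfl⟩
  have hNlo : l + 1 / 10 ≤ Real.log (N + 1 : ℕ) := by
    rw [Real.le_log_iff_exp_le (by positivity)]
    push_cast
    exact (hN ▸ Nat.lt_floor_add_one _).le
  have hNhi : (N : ℝ) ≤ 2 * T ^ (3 / 5 : ℝ) := by
    refine (hN ▸ Nat.floor_le (Real.exp_pos _).le).trans ?_
    rw [Real.exp_add, hel, mul_comm]
    exact mul_le_mul_of_nonneg_right ((Real.exp_bound_div_one_sub_of_interval (by norm_num)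
      (by norm_num)).trans (by norm_num)) (by positivity)
  have hXN : X ≤ N := by
    rw [hN]
    refine Nat.le_floor (hX2.trans ((Real.rpow_le_rpow_of_exponent_le hT1
      (show (1 / 10 : ℝ) ≤ 3 / 5 by norm_num)).trans ?_))
    rw [← hel]
    exact Real.exp_le_exp.2 (by linarith)
  obtain ⟨J, hJ⟩ : ∃ J, J = Nat.log 2 (N / X) + 1 := ⟨_, rfl⟩
  have hJN : N ≤ X * 2 ^ J := by
    have h := Nat.lt_pow_succ_log_self one_lt_two (N / X)
    rw [← Nat.succ_eq_add_one] at hJ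
    rw [hJ, mul_comm]
    exact ((Nat.div_lt_iff_lt_mul hX1).1 h).le
  have hJL : (J : ℝ) ≤ 3 * L := by
    have h1 : 2 ^ Nat.log 2 (N / X) ≤ N :=
      (Nat.pow_log_le_self 2 (Nat.div_pos hXN hX1).ne').trans (Nat.div_le_self _ _)
    have h2 : T ^ (3 / 5 : ℝ) * 2 ≤ T := by
      have h3 : (2 : ℝ) ≤ T ^ (2 / 5 : ℝ) := by
        refine le_trans ?_ (Real.rpow_le_rpow (by positivity) hT90 (by norm_num))
        rw [← Real.rpow_natCast, ← Real.rpow_mul two_pos.le]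
        exact (le_of_eq (Real.rpow_one 2).symm).trans
          (Real.rpow_le_rpow_of_exponent_le one_le_two (by norm_num))
      calc T ^ (3 / 5 : ℝ) * 2 ≤ T ^ (3 / 5 : ℝ) * T ^ (2 / 5 : ℝ) := by gcongr
        _ = T := by rw [← Real.rpow_add hT0]; norm_num
    have h := exponent_le_log hT1 (m := 1) (n := Nat.log 2 (N / X)) (by
      rw [Real.rpow_one]
      have : (2 : ℝ) ^ Nat.log 2 (N / X) ≤ (N : ℝ) := by exact_mod_cast h1
      linarith)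
    rw [hJ, hL]
    push_cast
    linarith
  -- the classes
  obtain ⟨c, hc⟩ : ∃ c, c = smoothCoeff X N l := ⟨_, rfl⟩
  have hcB : ∀ n, ‖c n‖ ≤ B * n.divisors.card := fun n => by
    rw [hc, smoothCoeff, norm_mul, mul_comm B]
    exact mul_le_mul (norm_molCoeff_le X N n) (hcut _) (norm_nonneg _) (Nat.cast_nonneg _)
  classical
  obtain ⟨Z, hZdef⟩ : ∃ Z, Z = ((zerosUpTo T).filter (fun ρ => σ ≤ ρ.re)).filter
      (fun ρ => T / 2 < |ρ.im|) := ⟨_, rfl⟩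
  rw [← hZdef]
  have hZ : ∀ ρ ∈ Z, xiFn ρ = 0 ∧ |ρ.im| ≤ T ∧ σ ≤ ρ.re ∧ T / 2 < |ρ.im| := fun ρ hρ => by
    simp only [hZdef, Finset.mem_filter, mem_zerosUpTo] at hρ
    exact ⟨hρ.1.1.1, hρ.1.1.2, hρ.1.2, hρ.2⟩
  obtain ⟨Z₂, hZ₂⟩ : ∃ Z₂, Z₂ = Z.filter
      (fun ρ => T ^ (3 / 5 * (σ - 1 / 2)) ≤ K * √(X : ℝ) * critAvg ρ.im) := ⟨_, rfl⟩
  obtain ⟨Z₁, hZ₁⟩ : ∃ Z₁ : ℕ → Finset ℂ, ∀ j, Z₁ j = Z.filter
      (fun ρ => 1 ≤ 9 * Real.log T * ‖piece (X * 2 ^ j) c ρ.re ρ.im‖) := ⟨_, fun j => rfl⟩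
  have hcover : ∀ ρ ∈ Z, ρ ∈ Z₂ ∨ ∃ j ∈ range J, ρ ∈ Z₁ j := fun ρ hρ => by
    obtain ⟨hx, him, hre, hlow⟩ := hZ ρ hρ
    obtain ⟨h0, h1⟩ := xiFn_zero_strip hx
    have hne : ρ ≠ 1 := fun h => by rw [h] at h1; simp at h1
    have hz : riemannZeta ρ = 0 := (xiFn_eq_zero_iff h0 hne).1 hx
    have him1 : 1 ≤ |ρ.im| := by linarith
    have hpole : K * √(X : ℝ) * Real.exp l ≤ |ρ.im| ^ 2 := by
      have h2 : √(X : ℝ) * Real.exp l ≤ T := by
        calc √(X : ℝ) * Real.exp l ≤ T ^ (1 / 10 : ℝ) * T ^ (3 / 5 : ℝ) := by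
              rw [hel]
              refine mul_le_mul_of_nonneg_right (le_trans ?_ hX2) (by positivity)
              rw [Real.sqrt_le_iff]
              exact ⟨Nat.cast_nonneg X, le_self_pow₀ (Nat.one_le_cast.2 hX1) two_ne_zero⟩
          _ ≤ T := by
              rw [← Real.rpow_add hT0]
              exact (Real.rpow_le_rpow_of_exponent_le hT1 (by norm_num)).trans
                (le_of_eq (Real.rpow_one T))
      rw [mul_assoc]
      calc K * (√(X : ℝ) * Real.exp l) ≤ (T / 4) * T :=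
            mul_le_mul (by linarith) h2 (by positivity) (by positivity)
        _ = (T / 2) ^ 2 := by ring
        _ ≤ _ := pow_le_pow_left₀ (by linarith) hlow.le 2
    rcases hdich X N l ρ hX1 hXN (by rw [hl]; linarith) hNlo hz (hσ.trans hre) h1 him1 hpole with
      hI | hII
    · right
      rw [smoothSum_eq_pieces hJN hNlo, ← hc] at hI
      have hI' := hI.trans (norm_sum_le _ _)
      obtain ⟨j, hj, hle⟩ := exists_le_of_sum_le (f := fun _ => 1 / (9 * L)) (s := range J)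
        (g := fun j => ‖piece (X * 2 ^ j) c ρ.re ρ.im‖)
        (nonempty_range_iff.2 (by rw [hJ]; exact Nat.succ_ne_zero _)) (by
          rw [sum_const, card_range, nsmul_eq_mul]
          refine le_trans ?_ hI'
          rw [mul_one_div, div_le_iff₀ (by positivity)]
          linarith)
      refine ⟨j, hj, ?_⟩
      rw [hZ₁, Finset.mem_filter, ← hL]
      refine ⟨hρ, ?_⟩
      rwa [div_le_iff₀' (by positivity)] at hle
    · left
      rw [hZ₂, Finset.mem_filter]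
      refine ⟨hρ, le_trans ?_ hII⟩
      rw [Real.rpow_def_of_pos hT0, ← hL, hl]
      refine Real.exp_le_exp.2 ?_
      nlinarith
  have hsplit : ∑ ρ ∈ Z, (zeroWeight ρ : ℝ) ≤ (∑ ρ ∈ Z₂, (zeroWeight ρ : ℝ)) +
      ∑ j ∈ range J, ∑ ρ ∈ Z₁ j, (zeroWeight ρ : ℝ) := by
    simp only [hZ₂, hZ₁, Finset.sum_filter]
    rw [Finset.sum_comm, ← Finset.sum_add_distrib]
    refine sum_le_sum fun ρ hρ => ?_
    have h0 : ∀ j ∈ range J, (0 : ℝ) ≤
        if 1 ≤ 9 * Real.log T * ‖piece (X * 2 ^ j) c ρ.re ρ.im‖ then (zeroWeight ρ : ℝ) else 0 :=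
      fun j _ => by split_ifs <;> simp
    rcases hcover ρ hρ with h | ⟨j, hj, h⟩
    · rw [hZ₂, Finset.mem_filter] at h
      rw [if_pos h.2]
      exact le_add_of_nonneg_right (sum_nonneg h0)
    · rw [hZ₁, Finset.mem_filter] at h
      refine le_trans ?_ (le_add_of_nonneg_left (by split_ifs <;> simp))
      refine le_trans (le_of_eq ?_) (single_le_sum h0 hj)
      rw [if_pos h.2]
  have hU : ∀ j ∈ range J, T ^ (1 / 10 : ℝ) / 2 ≤ ((X * 2 ^ j : ℕ) : ℝ) ∧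
      ((X * 2 ^ j : ℕ) : ℝ) ≤ 2 * T ^ (3 / 5 : ℝ) := fun j hj => by
    refine ⟨hXlo.trans (Nat.cast_le.2 (Nat.le_mul_of_pos_right X (by positivity))),
      le_trans (Nat.cast_le.2 ?_) hNhi⟩
    refine (Nat.mul_le_mul_left X ((Nat.pow_le_pow_right two_pos (show j ≤ Nat.log 2 (N / X) by
      have := mem_range.1 hj; omega)).trans (Nat.pow_log_le_self 2
        (Nat.div_pos hXN hX1).ne'))).trans ?_
    exact Nat.mul_div_le N X
  have h1 : ∀ j ∈ range J, ∑ ρ ∈ Z₁ j, (zeroWeight ρ : ℝ) ≤ C₁ * P * L ^ A := fun j hj => by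
    rw [hP, hL]
    refine hone (X * 2 ^ j) c σ T (Z₁ j) hT90 (hU j hj).1 (hU j hj).2 hcB (by linarith) hσ1
      fun ρ hρ => ?_
    rw [hZ₁, Finset.mem_filter] at hρ
    exact ⟨(hZ ρ hρ.1).1, (hZ ρ hρ.1).2.1, (hZ ρ hρ.1).2.2.1, hρ.2⟩
  have h2 : ∑ ρ ∈ Z₂, (zeroWeight ρ : ℝ) ≤ C₂ * K ^ 4 * P * L ^ 5 := by
    rw [hP, hL]
    refine htwo σ K X T Z₂ hT11 hK.le hX2 fun ρ hρ => ?_
    rw [hZ₂, Finset.mem_filter] at hρ
    exact ⟨(hZ ρ hρ.1).1, (hZ ρ hρ.1).2.1, hρ.2⟩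
  refine hsplit.trans ((add_le_add h2 ((sum_le_card_nsmul _ _ _ h1).trans (le_of_eq
    (nsmul_eq_mul _ _)))).trans ?_)
  rw [card_range]
  have a1 : L ^ 5 ≤ L ^ (A + 6) := pow_le_pow_right₀ (by linarith) (by omega)
  have a2 : L ^ (A + 1) ≤ L ^ (A + 6) := pow_le_pow_right₀ (by linarith) (by omega)
  calc C₂ * K ^ 4 * P * L ^ 5 + (J : ℝ) * (C₁ * P * L ^ A)
      ≤ C₂ * K ^ 4 * P * L ^ 5 + 3 * L * (C₁ * P * L ^ A) := by gcongr
    _ = C₂ * K ^ 4 * P * L ^ 5 + 3 * C₁ * P * L ^ (A + 1) := by ring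
    _ ≤ C₂ * K ^ 4 * P * L ^ (A + 6) + 3 * C₁ * P * L ^ (A + 6) := by gcongr
    _ = _ := by ring

/-- **Huxley's zero-density theorem.** -/
theorem exists_huxley_density : ∃ C, 0 ≤ C ∧ ∃ A : ℕ, ∀ σ T : ℝ, 2 ≤ T →
    (countGe σ T : ℝ) ≤ C * T ^ (12 / 5 * (1 - σ)) * Real.log T ^ A := by
  obtain ⟨C₀, hC₀, htriv⟩ := exists_countGe_trivial
  obtain ⟨C₁, hC₁, A, T₀, hT₀, hband⟩ := exists_huxley_band
  obtain ⟨M, hM⟩ : ∃ M, M = (countGe 0 T₀ : ℝ) := ⟨_, rfl⟩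
  have hM0 : 0 ≤ M := hM ▸ Nat.cast_nonneg _
  refine ⟨(C₀ + M + 3 * C₁) * 4 ^ (A + 2), by positivity, A + 1, fun σ T hT => ?_⟩
  obtain ⟨L, hLdef⟩ : ∃ L, L = Real.log T := ⟨_, rfl⟩
  rw [← hLdef]
  have hL : 1 / 2 ≤ L := hLdef ▸
    le_trans (by linarith [Real.log_two_gt_d9]) (Real.log_le_log two_pos hT)
  have hT0 : 0 < T := by linarith
  obtain ⟨P, hP⟩ : ∃ P, P = T ^ (12 / 5 * (1 - σ)) := ⟨_, rfl⟩
  rw [← hP]
  have hP0 : 0 ≤ P := hP ▸ Real.rpow_nonneg hT0.le _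
  have h4 : ∀ i : ℕ, i ≤ A + 1 → L ^ i ≤ 4 ^ (A + 2) * L ^ (A + 1) := fun i hi => by
    have e : (4 : ℝ) ^ (A + 2) * L ^ (A + 1) = 4 * (4 * L) ^ (A + 1 - i) * (4 ^ i * L ^ i) := by
      rw [← mul_pow, mul_assoc, ← pow_add, show A + 1 - i + i = A + 1 by omega, mul_pow]
      ring
    rw [e, ← mul_assoc]
    refine le_mul_of_one_le_left (pow_nonneg (by linarith) i) ?_
    exact one_le_mul_of_one_le_of_one_le (one_le_mul_of_one_le_of_one_le (by norm_num)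
      (one_le_pow₀ (by linarith))) (one_le_pow₀ (by norm_num))
  rcases le_or_gt σ (7 / 12) with hσ | hσ
  · have hTP : T ≤ P := hP ▸ Real.self_le_rpow_of_one_le (by linarith) (by linarith)
    have h := h4 1 (by omega)
    rw [pow_one] at h
    calc (countGe σ T : ℝ) ≤ C₀ * (T * L) := hLdef ▸ htriv σ T hT
      _ ≤ C₀ * (P * (4 ^ (A + 2) * L ^ (A + 1))) := by gcongr
      _ = C₀ * 4 ^ (A + 2) * P * L ^ (A + 1) := by ring
      _ ≤ _ := by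
        gcongr
        linarith
  rcases le_or_gt σ 1 with hσ1 | hσ1
  swap
  · have : countGe σ T = 0 := Finset.sum_eq_zero fun ρ hρ => by
      simp only [Finset.mem_filter, mem_zerosUpTo] at hρ
      linarith [(xiFn_zero_strip hρ.1.1).2]
    rw [this, Nat.cast_zero]
    positivity
  obtain ⟨j, hj⟩ : ∃ j, j = Nat.log 2 ⌊T⌋₊ + 1 := ⟨_, rfl⟩
  have hjT : T ≤ 2 ^ j * T₀ := by
    have h2 : ((⌊T⌋₊ : ℕ) : ℝ) + 1 ≤ (2 : ℝ) ^ j := by
      rw [hj]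
      exact_mod_cast
        (Nat.lt_pow_succ_log_self one_lt_two ⌊T⌋₊ : ⌊T⌋₊ + 1 ≤ 2 ^ (Nat.log 2 ⌊T⌋₊ + 1))
    have : (2 : ℝ) ^ j ≤ 2 ^ j * T₀ := le_mul_of_one_le_right (by positivity) (by linarith)
    linarith [Nat.lt_floor_add_one T]
  have hjL : (j : ℝ) ≤ 4 * L := by
    have hfl : 2 ^ Nat.log 2 ⌊T⌋₊ ≤ ⌊T⌋₊ :=
      Nat.pow_log_le_self 2 (Nat.floor_pos.2 (by linarith : (1 : ℝ) ≤ T)).ne'
    have hflR : (2 : ℝ) ^ Nat.log 2 ⌊T⌋₊ ≤ (⌊T⌋₊ : ℝ) := by exact_mod_cast hfl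
    have h := exponent_le_log (show 1 ≤ T by linarith) (m := 1)
      (n := Nat.log 2 ⌊T⌋₊) (by rw [Real.rpow_one]; exact hflR.trans (Nat.floor_le hT0.le))
    rw [hj, hLdef, Nat.cast_succ]
    linarith [hLdef ▸ hL]
  have h := countGe_le_bands hT₀ (show 0 ≤ C₁ * P * L ^ A by positivity)
    (fun S hS hST => (hband σ S hS hσ.le hσ1).trans (by
      have hS2 : 1 ≤ S := hT₀.trans hS
      rw [hP, hLdef]
      refine mul_le_mul (mul_le_mul_of_nonneg_left (Real.rpow_le_rpow (by linarith) hST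
        (by linarith)) hC₁) ?_ (pow_nonneg (Real.log_nonneg hS2) A) (by positivity)
      exact pow_le_pow_left₀ (Real.log_nonneg hS2) (Real.log_le_log (by linarith) hST) A))
    j T le_rfl hjT
  refine h.trans ?_
  have h1 : 1 ≤ P * (4 ^ (A + 2) * L ^ (A + 1)) :=
    one_le_mul_of_one_le_of_one_le (hP ▸ Real.one_le_rpow (by linarith) (by linarith))
      ((pow_zero L).symm.trans_le (h4 0 (Nat.zero_le _)))
  calc (countGe 0 T₀ : ℝ) + (j : ℝ) * (C₁ * P * L ^ A) ≤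
        M * (P * (4 ^ (A + 2) * L ^ (A + 1))) + 4 * L * (C₁ * P * L ^ A) := by
        rw [← hM]
        refine add_le_add (le_mul_of_one_le_right hM0 h1) ?_
        gcongr
    _ = (M * 4 ^ (A + 2) + 4 * C₁) * P * L ^ (A + 1) := by ring
    _ ≤ _ := by
        gcongr
        have : (4 : ℝ) * C₁ ≤ 3 * C₁ * 4 ^ (A + 2) := by
          have := one_le_pow₀ (n := A) (show (1 : ℝ) ≤ 4 by norm_num)
          rw [pow_add]
          nlinarith
        nlinarith [show (0 : ℝ) ≤ C₀ * 4 ^ (A + 2) by positivity]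

end FA.Huxley

end
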