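import Fermat.Agent.Huxley.Coefficients
import Fermat.Agent.FourthMoment.Remainder
import Fermat.Agent.SecondMoment.Main
import Fermat.Agent.Subconvexity.ZetaLine

/-!
# The two classes of zeros

At a zero `s` either the smoothed series of `ζ M` is large, or the average of `|ζ|` on the critical
line near `im s` is.
-/

set_option autoImplicit false

noncomputable section

namespace FA.Huxley

open Finset Filter MeasureTheory Complex
open FA.SelbergCLT
open FA.FourthMoment (wt differentiable_wt norm_wt_le doubleKer double_contour)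
open FA.Hoheisel (molCoeff molPairs molCoeff_low norm_molCoeff_le norm_moebius_cast_le
  natCast_mul_cpow)
open scoped Topology Real ArithmeticFunction.Moebius ComplexConjugate

/-- `|ζ (1/2 + it)|`. -/
def critNorm (t : ℝ) : ℝ := ‖riemannZeta (1 / 2 + t * I)‖

theorem continuous_critNorm : Continuous critNorm := FA.SecondMoment.continuous_zeta_line.norm

theorem critNorm_neg (t : ℝ) : critNorm (-t) = critNorm t := by
  rw [critNorm, critNorm, ← Complex.norm_conj, ← riemannZeta_conj]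
  congr 2
  simp [Complex.ext_iff]

theorem exists_critNorm_le : ∃ C, 0 ≤ C ∧ ∀ t : ℝ, critNorm t ≤ C * (1 + |t|) := by
  obtain ⟨B, hB⟩ := (isCompact_Icc (a := (0 : ℝ)) (b := 2)).exists_bound_of_continuousOn
    continuous_critNorm.continuousOn
  refine ⟨|B| + 3600000, by positivity, fun t => ?_⟩
  obtain ⟨u, hu, e⟩ : ∃ u : ℝ, u = |t| ∧ critNorm t = critNorm u := by
    refine ⟨|t|, rfl, ?_⟩
    rcases abs_choice t with h | h <;> rw [h]
    rw [critNorm_neg]
  rw [← hu, e]
  have hu0 : 0 ≤ u := hu ▸ abs_nonneg t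
  rcases le_or_gt u 2 with h2 | h2
  · refine ((le_abs_self _).trans ((hB u ⟨hu0, h2⟩).trans (le_abs_self B))).trans ?_
    nlinarith [abs_nonneg B]
  · refine (Subconvexity.norm_riemannZeta_half_le h2.le).trans ?_
    have h1 : Real.log u ≤ u ^ (1 / 6 : ℝ) / (1 / 6) :=
      Real.log_le_rpow_div hu0 (by norm_num)
    have hu6 : u ^ ((1 : ℝ) / 6) * u ^ (1 / 6 : ℝ) ≤ u := by
      rw [← Real.rpow_add (by linarith)]
      exact (Real.rpow_le_rpow_of_exponent_le (by linarith)
        (show (1 / 6 : ℝ) + 1 / 6 ≤ 1 by norm_num)).trans (le_of_eq (Real.rpow_one u))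
    have := mul_le_mul_of_nonneg_left h1 (Real.rpow_nonneg hu0 ((1 : ℝ) / 6))
    rw [div_eq_mul_inv] at this
    norm_num at this hu6 ⊢
    nlinarith [abs_nonneg B]

/-- The average of `|ζ|` near `t`. -/
def critAvg (t : ℝ) : ℝ := ∫ v, decay 8 v * critNorm (t + v)

theorem integrable_critAvg (t : ℝ) : Integrable fun v => decay 8 v * critNorm (t + v) := by
  obtain ⟨C, hC, h⟩ := exists_critNorm_le
  refine integrable_of_decay (m := 8 - 1) (by norm_num) ((continuous_decay 8).mul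
    (continuous_critNorm.comp (by fun_prop))) (C := C * (1 + |t|)) fun v => ?_
  rw [Real.norm_of_nonneg (show 0 ≤ decay 8 v * critNorm (t + v) from
      mul_nonneg (decay_nonneg _ _) (norm_nonneg _)),
    ← pow_mul_decay (show 1 ≤ 8 by norm_num) v, pow_one]
  refine (mul_le_mul_of_nonneg_left ((h (t + v)).trans (mul_le_mul_of_nonneg_left
    (show 1 + |t + v| ≤ (1 + |t|) * (1 + |v|) by
      nlinarith [abs_add_le t v, abs_nonneg t, abs_nonneg v]) hC)) (decay_nonneg _ _)).trans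
    (le_of_eq ?_)
  ring

theorem critAvg_nonneg (t : ℝ) : 0 ≤ critAvg t :=
  integral_nonneg fun _ => mul_nonneg (decay_nonneg _ _) (norm_nonneg _)

/-- The mollifier. -/
def molPoly (X : ℕ) (s : ℂ) : ℂ := ∑ d ∈ Icc 1 X, ((μ d : ℤ) : ℂ) * (d : ℂ) ^ (-s)

theorem differentiable_molPoly (X : ℕ) : Differentiable ℂ (molPoly X) := by
  unfold molPoly
  exact Differentiable.fun_sum fun d hd => (differentiable_id.neg.const_cpow (Or.inl
    (Nat.cast_ne_zero.2 (show d ≠ 0 by have := (mem_Icc.1 hd).1; omega)))).const_mul _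

theorem norm_molPoly_le (X : ℕ) {s : ℂ} (hs : 1 / 2 ≤ s.re) : ‖molPoly X s‖ ≤ 2 * √(X : ℝ) := by
  refine (norm_sum_le _ _).trans ?_
  refine le_trans ?_ (Subconvexity.sum_inv_sqrt_le X)
  rw [show Icc 1 X = Ico 1 (X + 1) from rfl]
  refine Finset.sum_le_sum fun d hd => ?_
  have hd1 : (1 : ℝ) ≤ d := Nat.one_le_cast.2 (Finset.mem_Ico.1 hd).1
  rw [norm_mul, norm_natCast_cpow_of_pos (Finset.mem_Ico.1 hd).1, neg_re,
    Real.rpow_neg (by linarith), Real.sqrt_eq_rpow, ← one_div]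
  refine (mul_le_of_le_one_left (by positivity) (norm_moebius_cast_le d)).trans ?_
  exact one_div_le_one_div_of_le (by positivity) (Real.rpow_le_rpow_of_exponent_le hd1 hs)

/-- The coefficients of `ζ M`, smoothly cut at `e ^ l`. -/
def smoothCoeff (X N : ℕ) (l : ℝ) (n : ℕ) : ℂ := molCoeff X N n * cutoff (Real.log n - l)

/-- The series, from `X` on. -/
def smoothSum (X N : ℕ) (l : ℝ) (s : ℂ) : ℂ :=
  ∑ n ∈ Ioc X N, smoothCoeff X N l n * (1 / (n : ℂ) ^ s)

theorem cutoff_vanish {N n : ℕ} (hn : N < n) {b : ℝ}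
    (hN : 1 / 10 ≤ Real.log (N + 1 : ℕ) + b) : cutoff (Real.log n + b) = 0 := by
  refine cutoff_eq_zero (hN.trans (add_le_add ?_ le_rfl))
  exact Real.log_le_log (Nat.cast_pos.2 N.succ_pos) (Nat.cast_le.2 hn)

/-- `ζ` against the kernel on the line through `z + 1`. -/
theorem integral_zeta_kern {z : ℂ} (hz : 0 < z.re) {b : ℝ} {N : ℕ}
    (hN : 1 / 10 ≤ Real.log (N + 1 : ℕ) + b) :
    Integrable (fun v : ℝ => riemannZeta (z + (1 + (v : ℂ) * I)) * kern 1 b v) ∧
    ∫ v : ℝ, riemannZeta (z + (1 + (v : ℂ) * I)) * kern 1 b v =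
      (2 * π : ℂ) * ∑ m ∈ Icc 1 N, (m : ℂ) ^ (-z) * cutoff (Real.log m + b) := by
  obtain ⟨F, hF⟩ : ∃ F : ℕ → ℝ → ℂ, F = fun (n : ℕ) (v : ℝ) =>
      ((n + 1 : ℕ) : ℂ) ^ (-(z + (1 + (v : ℂ) * I))) * kern 1 b v := ⟨_, rfl⟩
  obtain ⟨D, hD⟩ : ∃ D, D = Real.exp (-b * 1 + |(1 : ℝ)| / 10) * kernelConst / |(1 : ℝ)| := ⟨_, rfl⟩
  have hbound : ∀ (n : ℕ) (v : ℝ),
      ‖F n v‖ ≤ ((n : ℝ) + 1) ^ (-(z.re + 1)) * D * decay kernelDeg v := fun n v => by
    rw [hF, norm_mul, norm_natCast_cpow_of_pos n.succ_pos, mul_assoc]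
    exact mul_le_mul (le_of_eq (by simp)) (hD ▸ norm_kern_le one_ne_zero b v) (norm_nonneg _)
      (by positivity)
  have hcont : ∀ n, Continuous (F n) := fun n => by
    rw [hF]
    exact ((by fun_prop : Continuous fun v : ℝ => -(z + (1 + (v : ℂ) * I))).const_cpow
      (Or.inl (Nat.cast_ne_zero.2 n.succ_ne_zero))).mul (continuous_kern one_ne_zero b)
  have hint : ∀ n, Integrable (F n) := fun n =>
    integrable_of_decay two_le_kernelDeg (hcont n) (hbound n)
  have hsum : Summable fun n => ∫ v, ‖F n v‖ := by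
    refine Summable.of_nonneg_of_le (fun n => integral_nonneg fun v => norm_nonneg _) (fun n => ?_)
      (((summable_powSum (σ := z.re + 1) (by linarith)).mul_right D).mul_right
        (∫ v, decay kernelDeg v))
    rw [← integral_const_mul]
    exact integral_mono (hint n).norm ((integrable_decay two_le_kernelDeg).const_mul _) (hbound n)
  have hbd : ∀ v : ℝ, Summable fun n => ‖F n v‖ := fun v =>
    Summable.of_nonneg_of_le (fun n => norm_nonneg _) (fun n => hbound n v)
      (((summable_powSum (σ := z.re + 1) (by linarith)).mul_right D).mul_right _)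
  have e : ∀ v : ℝ, riemannZeta (z + (1 + (v : ℂ) * I)) * kern 1 b v = ∑' n, F n v := fun v => by
    rw [zeta_eq_tsum_one_div_nat_add_one_cpow (by simp; linarith), ← tsum_mul_right, hF]
    refine tsum_congr fun n => ?_
    simp only [one_div, ← cpow_neg, Nat.cast_add, Nat.cast_one]
  refine ⟨integrable_of_decay two_le_kernelDeg (m := kernelDeg)
    (C := (∑' n : ℕ, ((n : ℝ) + 1) ^ (-(z.re + 1))) * D)
    ((continuous_line (a := 1) (F := fun w => riemannZeta (z + w)) fun v => by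
      refine ((differentiableAt_riemannZeta fun h => ?_).comp _
        (differentiableAt_id.const_add z)).continuousAt
      have := congrArg Complex.re h
      simp at this
      linarith).congr (fun v => by rw [ofReal_one]) |>.mul (continuous_kern one_ne_zero b))
    fun v => ?_, ?_⟩
  · rw [e v]
    refine (norm_tsum_le_tsum_norm (hbd v)).trans
      ((Summable.tsum_le_tsum (fun n => hbound n v) (hbd v)
        (((summable_powSum (σ := z.re + 1) (by linarith)).mul_right D).mul_right _)).trans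
          (le_of_eq ?_))
    rw [tsum_mul_right, tsum_mul_right]
  simp only [e]
  rw [← integral_tsum_of_summable_integral_norm hint hsum]
  have hterm : ∀ n : ℕ, ∫ v, F n v = (2 * π : ℂ) *
      (((n + 1 : ℕ) : ℂ) ^ (-z) * cutoff (Real.log (n + 1 : ℕ) + b)) := fun n => by
    have h2π : (2 * π : ℂ) ≠ 0 := mul_ne_zero two_ne_zero (ofReal_ne_zero.2 Real.pi_ne_zero)
    have ek : ∀ v : ℝ, F n v = ((n + 1 : ℕ) : ℂ) ^ (-z) *
        kern 1 (Real.log (n + 1 : ℕ) + b) v := fun v => by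
      rw [hF]
      simp only [kern]
      rw [natCast_cpow_eq_exp n.succ_pos, natCast_cpow_eq_exp n.succ_pos,
        show (Real.log (n + 1 : ℕ) : ℂ) * -(z + (1 + (v : ℂ) * I)) =
          (Real.log (n + 1 : ℕ) : ℂ) * -z + -(Real.log (n + 1 : ℕ) : ℂ) * (1 + (v : ℂ) * I) by ring,
        show -((Real.log (n + 1 : ℕ) + b : ℝ) : ℂ) * (((1 : ℝ) : ℂ) + (v : ℂ) * I) =
          -(Real.log (n + 1 : ℕ) : ℂ) * (1 + (v : ℂ) * I) +
            (-(b : ℂ) * (((1 : ℝ) : ℂ) + (v : ℂ) * I)) by push_cast; ring,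
        Complex.exp_add, Complex.exp_add]
      ring
    simp only [ek]
    rw [integral_const_mul, cutoff]
    field_simp
  simp only [hterm]
  rw [tsum_mul_left]
  congr 1
  rw [tsum_eq_sum (s := Finset.range N) fun n hn => ?_]
  · refine Finset.sum_nbij' (fun n => n + 1) (fun n => n - 1) ?_ ?_ ?_ ?_ ?_ <;> intro n hn <;>
      simp only [Finset.mem_range, Finset.mem_Icc] at * <;> first | omega | simp
  · rw [Finset.mem_range, not_lt] at hn
    rw [cutoff_vanish (show N < n + 1 by omega) hN, mul_zero]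

/-- `ζ M` against the kernel on the line through `s + 1`. -/
theorem integral_mollified {X N : ℕ} (hX : 1 ≤ X) (hXN : X ≤ N) {l : ℝ} (hl : 1 / 10 ≤ l)
    (hN : l + 1 / 10 ≤ Real.log (N + 1 : ℕ)) {s : ℂ} (hs : 0 < s.re) :
    ∫ v : ℝ, riemannZeta (s + (1 + (v : ℂ) * I)) * molPoly X (s + (1 + (v : ℂ) * I)) *
      kern 1 (-l) v = (2 * π : ℂ) * (1 + smoothSum X N l s) := by
  have hN' : ∀ d ∈ Icc 1 X, 1 / 10 ≤ Real.log (N + 1 : ℕ) + (Real.log d - l) := fun d _ => by
    linarith [Real.log_natCast_nonneg d]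
  have e : ∀ v : ℝ, riemannZeta (s + (1 + (v : ℂ) * I)) * molPoly X (s + (1 + (v : ℂ) * I)) *
      kern 1 (-l) v = ∑ d ∈ Icc 1 X, (((μ d : ℤ) : ℂ) * (d : ℂ) ^ (-s)) *
        (riemannZeta (s + (1 + (v : ℂ) * I)) * kern 1 (Real.log d - l) v) := fun v => by
    rw [molPoly, mul_sum, Finset.sum_mul]
    refine sum_congr rfl fun d hd => ?_
    have hd0 := (mem_Icc.1 hd).1
    simp only [kern]
    rw [natCast_cpow_eq_exp hd0, natCast_cpow_eq_exp hd0,
      show (Real.log d : ℂ) * -(s + (1 + (v : ℂ) * I)) =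
        (Real.log d : ℂ) * -s + -(Real.log d : ℂ) * (1 + (v : ℂ) * I) by ring,
      show -((Real.log d - l : ℝ) : ℂ) * (((1 : ℝ) : ℂ) + (v : ℂ) * I) =
        -(Real.log d : ℂ) * (1 + (v : ℂ) * I) +
          (-((-l : ℝ) : ℂ) * (((1 : ℝ) : ℂ) + (v : ℂ) * I)) by push_cast; ring,
      Complex.exp_add, Complex.exp_add]
    ring
  simp only [e]
  rw [integral_finsetSum _ fun d hd => ((integral_zeta_kern hs (hN' d hd)).1.const_mul _)]
  simp only [integral_const_mul]
  rw [sum_congr rfl fun d hd => congrArg (fun x => ((μ d : ℤ) : ℂ) * (d : ℂ) ^ (-s) * x)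
    (integral_zeta_kern hs (hN' d hd)).2]
  simp only [mul_left_comm _ (2 * π : ℂ), ← mul_sum]
  congr 1
  obtain ⟨g, hg⟩ : ∃ g : ℕ → ℂ, g = fun n : ℕ => cutoff (Real.log n - l) * (1 / (n : ℂ) ^ s) :=
    ⟨_, rfl⟩
  have h1 : ∑ d ∈ Icc 1 X, ((μ d : ℤ) : ℂ) * (d : ℂ) ^ (-s) *
      ∑ m ∈ Icc 1 N, (m : ℂ) ^ (-s) * cutoff (Real.log m + (Real.log d - l)) =
      ∑ n ∈ Icc 1 (X * N), molCoeff X N n * g n := by
    simp only [mul_sum]
    rw [← Finset.sum_product',
      ← Finset.sum_fiberwise_of_maps_to (g := fun p : ℕ × ℕ => p.1 * p.2) (t := Icc 1 (X * N))]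
    · refine Finset.sum_congr rfl fun n _ => ?_
      rw [molCoeff, molPairs, Finset.sum_mul]
      refine Finset.sum_congr rfl fun p hp => ?_
      obtain ⟨hp, he⟩ := Finset.mem_filter.1 hp
      rw [Finset.mem_product, Finset.mem_Icc, Finset.mem_Icc] at hp
      simp only [hg]
      rw [← he, natCast_mul_cpow, cpow_neg, cpow_neg, Nat.cast_mul,
        Real.log_mul (Nat.cast_ne_zero.2 (show p.1 ≠ 0 by omega))
          (Nat.cast_ne_zero.2 (show p.2 ≠ 0 by omega)),
        show Real.log p.2 + (Real.log p.1 - l) = Real.log p.1 + Real.log p.2 - l by ring]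
      simp only [one_div, mul_inv]
      ring
    · intro p hp
      rw [Finset.mem_product, Finset.mem_Icc, Finset.mem_Icc] at hp
      exact Finset.mem_Icc.2 ⟨Nat.one_le_iff_ne_zero.2 (Nat.mul_ne_zero (by omega) (by omega)),
        Nat.mul_le_mul hp.1.2 hp.2.2⟩
  have hsub : Icc 1 N ⊆ Icc 1 (X * N) :=
    Icc_subset_Icc_right (Nat.le_mul_of_pos_left N (by omega))
  rw [h1, ← Finset.sum_subset hsub fun n hn hn' => ?_]
  swap
  · rw [mem_Icc] at hn hn'
    simp only [hg]
    rw [sub_eq_add_neg, cutoff_vanish (show N < n by omega) (by linarith), zero_mul, mul_zero]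
  rw [show Icc 1 N = Icc 1 X ∪ Ioc X N by
      ext k; simp only [Finset.mem_union, Finset.mem_Icc, Finset.mem_Ioc]; omega,
    Finset.sum_union (Finset.disjoint_left.2 fun k hk hk' => by
      rw [Finset.mem_Icc] at hk; rw [Finset.mem_Ioc] at hk'; omega), smoothSum]
  congr 1
  · rw [Finset.sum_eq_single 1]
    · rw [molCoeff_low le_rfl hX (by omega)]
      simp only [hg, if_true, Nat.cast_one, Real.log_one, zero_sub, one_cpow, div_one, mul_one,
        one_mul]
      exact cutoff_eq_one (by linarith)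
    · intro n hn hne
      rw [Finset.mem_Icc] at hn
      rw [molCoeff_low hn.1 hn.2 (hn.2.trans hXN), if_neg hne, zero_mul]
    · intro h
      exact absurd (Finset.mem_Icc.2 ⟨le_rfl, hX⟩) h
  · refine sum_congr rfl fun n _ => ?_
    simp only [hg, smoothCoeff]
    ring

/-- **The dichotomy at a zero**, down to `re s = 1/2 + δ`. -/
theorem exists_dichotomy_right {δ : ℝ} (hδ : 0 < δ) (hδ1 : δ ≤ 1 / 20) :
    ∃ K, 0 < K ∧ ∀ (X N : ℕ) (l : ℝ) (s : ℂ), 1 ≤ X → X ≤ N →
    1 / 10 ≤ l → l + 1 / 10 ≤ Real.log (N + 1 : ℕ) → riemannZeta s = 0 → 1 / 2 + δ ≤ s.re →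
    s.re < 1 →
    1 ≤ |s.im| → K * √(X : ℝ) * Real.exp l ≤ |s.im| ^ 2 →
      1 / 3 ≤ ‖smoothSum X N l s‖ ∨
        Real.exp (l * (s.re - 1 / 2)) ≤ K * √(X : ℝ) * critAvg s.im := by
  refine ⟨4 / δ * kernelConst, mul_pos (by positivity) (by linarith [one_le_kernelConst]),
    fun X N l s hX hXN hl hN hz hre hre1 him hK => ?_⟩
  have hK1 := one_le_kernelConst
  have hδ2 : 80 ≤ 4 / δ := by rw [le_div_iff₀ hδ]; linarith
  have hl0 : 0 ≤ l := by linarith
  obtain ⟨ρ, hρ⟩ : ∃ ρ : ℂ, ρ = 1 - s := ⟨_, rfl⟩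
  have hρre : ρ.re = 1 - s.re := by simp [hρ]
  have hρim : ρ.im = -s.im := by simp [hρ]
  have hs1 : s ≠ 1 := fun h => by rw [h] at him; simp at him; linarith
  have hρ0 : ρ ≠ 0 := fun h => hs1 (sub_eq_zero.1 (hρ ▸ h)).symm
  obtain ⟨a, ha⟩ : ∃ a, a = 1 / 2 - s.re := ⟨_, rfl⟩
  have ha0 : a ≤ -δ := by linarith
  obtain ⟨Φ, hΦ⟩ : ∃ Φ : ℂ → ℂ, Φ = fun w => riemannZeta₁ (s + w) * molPoly X (s + w) * wt l w :=
    ⟨_, rfl⟩
  have hΦd : Differentiable ℂ Φ := hΦ ▸ ((differentiable_riemannZeta₁.comp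
    (differentiable_id.const_add s)).mul ((differentiable_molPoly X).comp
      (differentiable_id.const_add s))).mul (differentiable_wt l)
  obtain ⟨Ψ, hΨ⟩ : ∃ Ψ : ℂ → ℂ, Ψ = fun w => Φ w * (w - ρ) := ⟨_, rfl⟩
  have hΨd : Differentiable ℂ Ψ := hΨ ▸ hΦd.mul (differentiable_id.sub_const ρ)
  have hker : ∀ w : ℂ, w ≠ ρ → doubleKer Ψ ρ w = Φ w / ((w - ρ) * w) := fun w hw => by
    simp only [doubleKer, hΨ]
    rw [sq, mul_assoc, mul_comm (Φ w), mul_div_mul_left _ _ (sub_ne_zero.2 hw)]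
  have hbd : ∀ u v : ℝ, u ∈ Set.Icc a 1 → (u = a ∨ u = 1 ∨ |ρ.im| + 1 ≤ |v|) →
      ‖doubleKer Ψ ρ ((u : ℂ) + (v : ℂ) * I)‖ ≤ 2 / δ * (Real.exp growDeg * (|s.im| + 3) ^ growDeg *
        (2 * √(X : ℝ)) * (2 * kernelConst * Real.exp l)) * decay (kernelDeg - growDeg) v := by
    intro u v hu h
    obtain ⟨w, hw⟩ : ∃ w : ℂ, w = (u : ℂ) + (v : ℂ) * I := ⟨_, rfl⟩
    have hwre : w.re = u := by simp [hw]
    have hwim : w.im = v := by simp [hw]
    have key : 1 / 2 ≤ ‖w - ρ‖ ∧ δ ≤ ‖w‖ := by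
      rcases h with h | h | h
      · refine ⟨le_trans ?_ (abs_re_le_norm _), le_trans ?_ (abs_re_le_norm _)⟩
        · rw [sub_re, hwre, hρre, h, ha, abs_of_nonpos (by linarith)]
          linarith
        · rw [hwre, h, abs_of_nonpos (by linarith)]
          linarith
      · refine ⟨le_trans ?_ (abs_re_le_norm _), le_trans ?_ (abs_re_le_norm _)⟩
        · rw [sub_re, hwre, hρre, h, abs_of_nonneg (by linarith)]
          linarith
        · rw [hwre, h, abs_one]
          linarith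
      · refine ⟨le_trans ?_ (abs_im_le_norm _), le_trans ?_ (abs_im_le_norm _)⟩
        · rw [sub_im, hwim]
          linarith [abs_sub_abs_le_abs_sub v ρ.im]
        · rw [hwim]
          linarith [abs_nonneg ρ.im]
    have hne : w ≠ ρ := fun e => by
      rw [e, sub_self, norm_zero] at key
      linarith [key.1]
    rw [← hw, hker w hne, norm_div, norm_mul]
    have hden : δ / 2 ≤ ‖w - ρ‖ * ‖w‖ := by
      calc δ / 2 = 1 / 2 * δ := by ring
        _ ≤ _ := mul_le_mul key.1 key.2 hδ.le (norm_nonneg _)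
    rw [div_le_iff₀ (by linarith)]
    have hd0 := decay_nonneg (kernelDeg - growDeg) v
    have hnum : ‖Φ w‖ ≤ Real.exp growDeg * (|s.im| + 3) ^ growDeg *
        (2 * √(X : ℝ)) * (2 * kernelConst * Real.exp l) * decay (kernelDeg - growDeg) v := by
      rw [hΦ, norm_mul, norm_mul]
      have hzre : 1 / 2 ≤ (s + w).re := by rw [add_re, hwre]; linarith [hu.1]
      have h1 : ‖riemannZeta₁ (s + w)‖ ≤
          Real.exp growDeg * (|s.im| + 3) ^ growDeg * (1 + |v|) ^ growDeg := by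
        refine (norm_riemannZeta₁_le ⟨by linarith, by rw [add_re, hwre]; linarith [hu.2]⟩).trans ?_
        rw [mul_assoc, add_im, hwim]
        exact mul_le_mul_of_nonneg_left (FA.FourthMoment.shift_pow_le s.im v 3 (by norm_num) _)
          (Real.exp_pos _).le
      have h3 : ‖wt l w‖ ≤ 2 * kernelConst * Real.exp l * decay kernelDeg v := by
        refine (norm_wt_le l (by rw [hwre, abs_le]; constructor <;> linarith [hu.1, hu.2])).trans ?_
        rw [hwim, hwre]
        exact mul_le_mul_of_nonneg_right (mul_le_mul_of_nonneg_left (Real.exp_le_exp.2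
          (mul_le_of_le_one_right hl0 hu.2)) (by positivity)) (decay_nonneg _ _)
      refine (mul_le_mul (mul_le_mul h1 (norm_molPoly_le X hzre) (norm_nonneg _) (by positivity))
        h3 (norm_nonneg _) (by positivity)).trans (le_of_eq ?_)
      rw [← pow_mul_decay (show growDeg ≤ kernelDeg from
        le_trans (Nat.le_add_right _ 100) growDeg_add_le) v]
      ring
    have h0 := (norm_nonneg _).trans hnum
    refine hnum.trans (le_trans (le_of_eq ?_) (mul_le_mul_of_nonneg_left hden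
      (mul_nonneg (mul_nonneg (by positivity) (by positivity)) hd0)))
    field_simp
  obtain ⟨-, -, hcont⟩ := double_contour (Φ := Ψ) isOpen_univ hΨd.differentiableOn
    (a := a) (b := 1) (by linarith) one_pos (fun w _ => Set.mem_univ w) (ρ := ρ)
    (by linarith) (by linarith) hρ0 (le_trans (by norm_num) four_le_kernelDeg_sub) hbd
  have hΨρ : deriv Ψ ρ = Φ ρ := by
    have h : HasDerivAt Ψ (deriv Φ ρ * (ρ - ρ) + Φ ρ * 1) ρ :=
      hΨ ▸ (hΦd ρ).hasDerivAt.mul ((hasDerivAt_id' ρ).sub_const ρ)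
    rw [h.deriv]
    ring
  have hΦ0 : Φ 0 = 0 := by
    rw [hΦ]
    simp only [add_zero]
    rw [show riemannZeta₁ s = (s - 1) * riemannZeta s by
      rw [riemannZeta_eq_of_ne_one hs1, mul_div_cancel₀ _ (sub_ne_zero.2 hs1)], hz]
    simp
  rw [hΨρ, show Ψ 0 = 0 by rw [hΨ]; simp only [hΦ0, zero_mul],
    show Ψ ρ = 0 by rw [hΨ]; simp only [sub_self, mul_zero], zero_div, sub_zero,
    zero_add] at hcont
  have hline : ∀ u : ℝ, (u = a ∨ u = 1) → ∀ v : ℝ, doubleKer Ψ ρ ((u : ℂ) + (v : ℂ) * I) =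
      riemannZeta (s + ((u : ℂ) + (v : ℂ) * I)) * molPoly X (s + ((u : ℂ) + (v : ℂ) * I)) *
        kern u (-l) v := fun u hu v => by
    have hne : (u : ℂ) + (v : ℂ) * I ≠ ρ := fun e => by
      have := congrArg Complex.re e
      simp [hρre] at this
      rcases hu with hu | hu <;> subst hu <;> linarith
    have h1 : s + ((u : ℂ) + (v : ℂ) * I) ≠ 1 := fun e => hne (by rw [hρ]; linear_combination e)
    simp only [hker _ hne, hΦ, wt]
    rw [riemannZeta_eq_of_ne_one h1, kern,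
      show s + ((u : ℂ) + (v : ℂ) * I) - 1 = (u : ℂ) + (v : ℂ) * I - ρ by rw [hρ]; ring,
      show -((-l : ℝ) : ℂ) = (l : ℂ) by push_cast; ring, div_mul_eq_mul_div, div_mul_div_comm]
  have e1 := hline 1 (Or.inr rfl)
  simp only [ofReal_one] at e1 hcont
  simp only [e1, hline a (Or.inl rfl)] at hcont
  rw [integral_mollified hX hXN hl hN (by linarith)] at hcont
  obtain ⟨I₁, hI₁⟩ : ∃ x : ℂ, x = ∫ v : ℝ, riemannZeta (s + ((a : ℂ) + (v : ℂ) * I)) *
      molPoly X (s + ((a : ℂ) + (v : ℂ) * I)) * kern a (-l) v := ⟨_, rfl⟩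
  rw [← hI₁] at hcont
  have hI : ‖I₁‖ ≤ 4 / δ * kernelConst * √(X : ℝ) * Real.exp (-(l * (s.re - 1 / 2))) *
      critAvg s.im := by
    rw [hI₁, critAvg, ← integral_const_mul]
    refine norm_integral_le_of_norm_le ((integrable_critAvg _).const_mul _)
      (Eventually.of_forall fun v => ?_)
    rw [norm_mul, norm_mul]
    have hz' : s + ((a : ℂ) + (v : ℂ) * I) = 1 / 2 + ((s.im + v : ℝ) : ℂ) * I := by
      apply Complex.ext <;> simp [ha]
    have hk : ‖kern a (-l) v‖ ≤
        2 / δ * kernelConst * Real.exp (-(l * (s.re - 1 / 2))) * decay 8 v := by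
      refine (norm_kern_le (by linarith) _ v).trans ?_
      refine mul_le_mul ?_ (decay_le_of_le
        (show 8 ≤ kernelDeg by have := growDeg_add_le; omega) v) (decay_nonneg _ _) (by positivity)
      have haa : |a| = -a := abs_of_nonpos (by linarith)
      rw [haa, div_le_iff₀ (by linarith), Real.exp_add, ha,
        show -(-l) * (1 / 2 - s.re) = -(l * (s.re - 1 / 2)) by ring]
      have he : Real.exp (-(1 / 2 - s.re) / 10) ≤ 2 := by
        refine (Real.exp_le_exp.2 (show -(1 / 2 - s.re) / 10 ≤ 1 / 10 by linarith)).trans ?_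
        exact (Real.exp_bound_div_one_sub_of_interval (by norm_num) (by norm_num)).trans
          (by norm_num)
      have hE := Real.exp_pos (-(l * (s.re - 1 / 2)))
      have h0 : 0 ≤ Real.exp (-(l * (s.re - 1 / 2))) * kernelConst := by positivity
      calc _ ≤ Real.exp (-(l * (s.re - 1 / 2))) * 2 * kernelConst :=
            mul_le_mul_of_nonneg_right (mul_le_mul_of_nonneg_left he hE.le) (by linarith)
        _ ≤ _ := by
            calc _ = Real.exp (-(l * (s.re - 1 / 2))) * kernelConst * (2 / δ) * δ := by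
                  field_simp
              _ ≤ Real.exp (-(l * (s.re - 1 / 2))) * kernelConst * (2 / δ) *
                  -(1 / 2 - s.re) := mul_le_mul_of_nonneg_left (by linarith) (by positivity)
              _ = _ := by ring
    refine (mul_le_mul (mul_le_mul le_rfl (norm_molPoly_le X (by rw [hz']; simp))
      (norm_nonneg _) (norm_nonneg _)) hk (norm_nonneg _) (by positivity)).trans (le_of_eq ?_)
    rw [hz', critNorm]
    ring
  by_contra hcon
  rw [not_or, not_le, not_le] at hcon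
  have hpole : ‖Φ ρ / ρ‖ ≤ 1 / 6 := by
    rw [norm_div, hΦ, norm_mul, norm_mul, show s + ρ = 1 by rw [hρ]; ring, riemannZeta₁_one,
      norm_one, one_mul]
    have h1 : ‖wt l ρ‖ ≤ 2 * kernelConst * Real.exp l * (|s.im| ^ 2)⁻¹ := by
      refine (norm_wt_le l (by rw [hρre, abs_le]; constructor <;> linarith)).trans ?_
      rw [hρim, decay_neg]
      refine mul_le_mul (mul_le_mul_of_nonneg_left (Real.exp_le_exp.2
        (mul_le_of_le_one_right hl0 (by rw [hρre]; linarith))) (by positivity))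
        ((decay_le_of_le two_le_kernelDeg _).trans (inv_anti₀ (by positivity)
          (pow_le_pow_left₀ (abs_nonneg _) (by linarith) 2))) (decay_nonneg _ _) (by positivity)
    have h2 : 1 ≤ ‖ρ‖ := him.trans (by
      have := abs_im_le_norm ρ
      rwa [hρim, abs_neg] at this)
    refine (div_le_self (by positivity) h2).trans ((mul_le_mul
      (norm_molPoly_le X (by norm_num)) h1 (norm_nonneg _) (by positivity)).trans ?_)
    rw [← mul_assoc (2 * √(X : ℝ)), mul_inv_le_iff₀ (by positivity)]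
    have : 0 ≤ kernelConst * (√(X : ℝ) * Real.exp l) := by positivity
    linarith [mul_le_mul_of_nonneg_right hδ2 this]
  have hpi := Real.pi_gt_three
  have hS : 1 - ‖smoothSum X N l s‖ ≤ ‖(1 : ℂ) + smoothSum X N l s‖ := by
    have := norm_sub_norm_le (1 : ℂ) (-smoothSum X N l s)
    rwa [norm_one, norm_neg, sub_neg_eq_add] at this
  have hE : 4 / δ * kernelConst * √(X : ℝ) * Real.exp (-(l * (s.re - 1 / 2))) * critAvg s.im <
      1 := by
    rw [Real.exp_neg, mul_right_comm, mul_inv_lt_iff₀ (Real.exp_pos _), one_mul]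
    exact hcon.2
  have hsplit : (2 * π : ℂ) * (1 + smoothSum X N l s) = I₁ + 2 * π * (Φ ρ / ρ) := by
    linear_combination hcont
  have hn := congrArg norm hsplit
  rw [norm_mul, norm_mul, Complex.norm_two, Complex.norm_real,
    Real.norm_of_nonneg Real.pi_pos.le] at hn
  have hle := (hn.le).trans (norm_add_le _ _)
  rw [norm_mul, norm_mul, Complex.norm_two, Complex.norm_real,
    Real.norm_of_nonneg Real.pi_pos.le] at hle
  nlinarith [hcon.1]

/-- **The dichotomy at a zero**, down to `re s = 11/20`. -/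
theorem exists_dichotomy_wide : ∃ K, 0 < K ∧ ∀ (X N : ℕ) (l : ℝ) (s : ℂ), 1 ≤ X → X ≤ N →
    1 / 10 ≤ l → l + 1 / 10 ≤ Real.log (N + 1 : ℕ) → riemannZeta s = 0 → 11 / 20 ≤ s.re →
    s.re < 1 →
    1 ≤ |s.im| → K * √(X : ℝ) * Real.exp l ≤ |s.im| ^ 2 →
      1 / 3 ≤ ‖smoothSum X N l s‖ ∨
        Real.exp (l * (s.re - 1 / 2)) ≤ K * √(X : ℝ) * critAvg s.im := by
  obtain ⟨K, hK, h⟩ := exists_dichotomy_right (δ := 1 / 20) (by norm_num) le_rfl
  exact ⟨K, hK, fun X N l s h1 h2 h3 h4 h5 h6 =>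
    h X N l s h1 h2 h3 h4 h5 (le_trans (by norm_num) h6)⟩

/-- **The dichotomy at a zero.** -/
theorem exists_dichotomy : ∃ K, 0 < K ∧ ∀ (X N : ℕ) (l : ℝ) (s : ℂ), 1 ≤ X → X ≤ N → 1 / 10 ≤ l →
    l + 1 / 10 ≤ Real.log (N + 1 : ℕ) → riemannZeta s = 0 → 7 / 12 ≤ s.re → s.re < 1 →
    1 ≤ |s.im| → K * √(X : ℝ) * Real.exp l ≤ |s.im| ^ 2 →
      1 / 3 ≤ ‖smoothSum X N l s‖ ∨
        Real.exp (l * (s.re - 1 / 2)) ≤ K * √(X : ℝ) * critAvg s.im := by
  obtain ⟨K, hK, h⟩ := exists_dichotomy_wide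
  exact ⟨K, hK, fun X N l s h1 h2 h3 h4 h5 h6 =>
    h X N l s h1 h2 h3 h4 h5 (le_trans (by norm_num) h6)⟩

end FA.Huxley

end
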