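import Fermat.Agent.ShortLiouville.LargeValues
import Fermat.Agent.Huxley.Coefficients
import Fermat.Agent.SelbergCLT.Identity

/-!
# Large values of a Dirichlet polynomial

Points in a half plane with different integral parts of the height at which a polynomial of length
`M` is at least `V` number `O ((G M / V ^ 2 + T G ^ 3 M / V ^ 6) log ^ 3)`, `G` the weighted squares
of the coefficients: the inequality of Halász and Montgomery and Huxley's subdivision.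
-/

set_option autoImplicit false

noncomputable section

namespace FA.Huxley

open Finset Complex
open FA.ShortLiouville (kernelSum kernelBound norm_kernelSum_le)
open scoped Real ComplexConjugate

theorem harmonic_shift_le {K a : ℕ} (ha : a < K) :
    ∑ k ∈ range K, 1 / (1 + |(a : ℝ) - k|) ≤ 2 * (1 + Real.log K) := by
  have hh : ∑ j ∈ range K, 1 / (1 + (j : ℝ)) ≤ 1 + Real.log K := by
    refine le_trans (le_of_eq ?_) (harmonic_le_one_add_log K)
    rw [harmonic, Rat.cast_sum]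
    refine sum_congr rfl fun j _ => ?_
    push_cast
    rw [one_div, add_comm]
  have e : ∀ (s : Finset ℕ) (f : ℕ → ℕ), Set.InjOn f s → (∀ k ∈ s, f k ∈ range K) →
      ∑ k ∈ s, 1 / (1 + (f k : ℝ)) ≤ 1 + Real.log K := fun s f hf hs => by
    classical
    rw [← sum_image (g := f) (f := fun j : ℕ => 1 / (1 + (j : ℝ))) hf]
    exact (sum_le_sum_of_subset_of_nonneg (image_subset_iff.2 hs)
      fun j _ _ => by positivity).trans hh
  rw [← sum_filter_add_sum_filter_not (range K) (fun k => k ≤ a), two_mul]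
  refine add_le_add ?_ ?_
  · refine le_trans (le_of_eq (sum_congr rfl fun k hk => ?_)) (e _ (fun k => a - k)
      (fun x hx y hy h => by
        simp only [coe_filter, Set.mem_ofPred_eq] at hx hy h
        omega) fun k _ => mem_range.2 (by omega))
    rw [mem_filter] at hk
    rw [Nat.cast_sub hk.2, abs_of_nonneg (sub_nonneg.2 (Nat.cast_le.2 hk.2))]
  · refine le_trans (le_of_eq (sum_congr rfl fun k hk => ?_)) (e _ (fun k => k - a)
      (fun x hx y hy h => by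
        simp only [coe_filter, Set.mem_ofPred_eq] at hx hy h
        omega) fun k hk => mem_range.2 (by
          simp only [mem_filter, mem_range] at hk
          omega))
    rw [mem_filter, not_le] at hk
    rw [Nat.cast_sub hk.2.le, abs_of_nonpos (sub_nonpos.2 (Nat.cast_le.2 hk.2.le)), neg_sub]

/-- The sum over well spaced heights. -/
theorem sum_inv_spaced_le {ι : Type*} (S : Finset ι) (t : ι → ℝ) {T : ℝ} (hT : 0 ≤ T)
    (ht : ∀ r ∈ S, |t r| ≤ T) (hinj : Set.InjOn (fun r => ⌊|t r|⌋₊) S) {r : ι} (hr : r ∈ S) :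
    ∑ x ∈ S, 1 / (1 + |t r - t x|) ≤ 4 * (1 + Real.log (T + 2)) := by
  classical
  obtain ⟨a, ha⟩ : ∃ a, a = ⌊|t r|⌋₊ := ⟨_, rfl⟩
  have hmem : ∀ x ∈ S, ⌊|t x|⌋₊ ∈ range (⌊T⌋₊ + 1) := fun x hx =>
    mem_range.2 (Nat.lt_succ_of_le (Nat.floor_mono (ht x hx)))
  refine (sum_le_sum (g := fun x => 2 * (1 / (1 + |(a : ℝ) - (⌊|t x|⌋₊ : ℕ)|))) fun x _ => ?_).trans
    ?_
  · obtain ⟨k, hk⟩ : ∃ k, k = ⌊|t x|⌋₊ := ⟨_, rfl⟩
    rw [← hk, mul_one_div, div_le_div_iff₀ (by positivity) (by positivity), one_mul]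
    have a1 : (a : ℝ) ≤ |t r| := ha ▸ Nat.floor_le (abs_nonneg _)
    have a2 : |t r| < a + 1 := ha ▸ Nat.lt_floor_add_one _
    have k1 : (k : ℝ) ≤ |t x| := hk ▸ Nat.floor_le (abs_nonneg _)
    have k2 : |t x| < k + 1 := hk ▸ Nat.lt_floor_add_one _
    have h1 : |(|t r| - |t x|)| ≤ |t r - t x| := abs_abs_sub_abs_le_abs_sub _ _
    have h2 : |(a : ℝ) - k| ≤ |(|t r| - |t x|)| + 1 := by
      rw [abs_le]
      constructor <;> linarith [neg_abs_le (|t r| - |t x|), le_abs_self (|t r| - |t x|)]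
    linarith [abs_nonneg (t r - t x)]
  rw [← mul_sum, ← sum_image (g := fun x => ⌊|t x|⌋₊)
    (f := fun k : ℕ => 1 / (1 + |(a : ℝ) - k|)) hinj]
  have h : Real.log ((⌊T⌋₊ + 1 : ℕ) : ℝ) ≤ Real.log (T + 2) := by
    refine Real.log_le_log (by positivity) ?_
    push_cast
    linarith [Nat.floor_le hT]
  refine (mul_le_mul_of_nonneg_left ((sum_le_sum_of_subset_of_nonneg (image_subset_iff.2 hmem)
    fun k _ _ => by positivity).trans (harmonic_shift_le (mem_range.1 (ha ▸ hmem r hr))))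
      zero_le_two).trans ?_
  linarith

theorem conj_natCast_cpow {n : ℕ} (hn : 0 < n) (z : ℂ) :
    conj ((n : ℂ) ^ z) = (n : ℂ) ^ conj z := by
  rw [FA.SelbergCLT.natCast_cpow_eq_exp hn, FA.SelbergCLT.natCast_cpow_eq_exp hn,
    ← Complex.exp_conj, map_mul, conj_ofReal]

theorem norm_power_sum_le (M : ℕ) {z : ℂ} (hz : 0 ≤ z.re) :
    ‖∑ n ∈ Icc 1 M, (n : ℂ) ^ (-z)‖ ≤ kernelBound M z.im := by
  rw [show Icc 1 M = Ico 1 (M + 1) from rfl]
  have e : ∀ n ∈ Ico 1 (M + 1), (n : ℂ) ^ (-z) =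
      (((n : ℝ) ^ (-z.re) : ℝ) : ℂ) * (n : ℂ) ^ (-(I * (z.im : ℂ))) := fun n hn => by
    rw [ofReal_cpow (Nat.cast_nonneg n), ofReal_natCast,
      ← cpow_add _ _ (Nat.cast_ne_zero.2 (show n ≠ 0 by have := (mem_Ico.1 hn).1; omega))]
    congr 1
    apply Complex.ext <;> simp
  rw [sum_congr rfl e]
  refine (Subconvexity.norm_sum_weight_le (w := fun n => (n : ℝ) ^ (-z.re))
    (B := kernelBound M z.im) (by omega) (fun m _ _ => by positivity) (fun m hm _ =>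
      Real.rpow_le_rpow_of_nonpos (Nat.cast_pos.2 hm) (Nat.cast_le.2 m.le_succ) (by linarith))
    fun m hm hm' => ?_).trans (le_of_eq (by rw [Nat.cast_one, Real.one_rpow, one_mul]))
  refine le_trans (le_of_eq ?_) ((norm_kernelSum_le (m - 1) z.im).trans ?_)
  · rw [kernelSum, Hoheisel.dpoly, show Icc 1 (m - 1) = Ico 1 m by
      ext k; simp only [mem_Icc, mem_Ico]; omega]
    simp only [one_mul]
  · rw [kernelBound, kernelBound]
    gcongr
    all_goals omega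

/-- **The inequality of Halász and Montgomery.** -/
theorem halasz_montgomery {ι : Type*} (S : Finset ι) (s : ι → ℂ) {σ T D V G : ℝ} (hV : 0 ≤ V)
    (hT : 0 ≤ T) (M : ℕ) (b : ℕ → ℂ) (hs : ∀ r ∈ S, σ ≤ (s r).re ∧ |(s r).im| ≤ T)
    (hinj : Set.InjOn (fun r => ⌊|(s r).im|⌋₊) S)
    (hD : ∀ r ∈ S, ∀ x ∈ S, |(s r).im - (s x).im| ≤ D)
    (hbig : ∀ r ∈ S, V ≤ ‖∑ n ∈ Icc 1 M, b n * (1 / (n : ℂ) ^ s r)‖)
    (hG : ∑ n ∈ Icc 1 M, (n : ℝ) ^ (-(2 * σ)) * ‖b n‖ ^ 2 ≤ G) :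
    (S.card * V) ^ 2 ≤ G * (S.card * (600 * M * (1 + Real.log (T + 2))) +
      (S.card : ℝ) ^ 2 * (87 * √(1 + D) * ((Nat.log 2 M : ℝ) + 1))) := by
  obtain ⟨P, hP⟩ : ∃ P : ι → ℂ, ∀ r, P r = ∑ n ∈ Icc 1 M, b n * (1 / (n : ℂ) ^ s r) :=
    ⟨_, fun r => rfl⟩
  obtain ⟨η, hη⟩ : ∃ η : ι → ℂ, ∀ r, η r = conj (P r) / (‖P r‖ : ℂ) := ⟨_, fun r => rfl⟩
  have hη1 : ∀ r, ‖η r‖ ≤ 1 := fun r => by
    rw [hη, norm_div, Complex.norm_real, norm_norm, Complex.norm_conj]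
    exact div_self_le_one _
  have hηP : ∀ r, η r * P r = (‖P r‖ : ℂ) := fun r => by
    rw [hη, div_mul_eq_mul_div, Complex.conj_mul']
    by_cases h : P r = 0
    · simp [h]
    · rw [sq, mul_div_cancel_right₀ _ (ofReal_ne_zero.2 (norm_ne_zero_iff.2 h))]
  obtain ⟨A, hA⟩ : ∃ A : ℕ → ℂ, ∀ n, A n = ∑ r ∈ S, η r * (n : ℂ) ^ (-(s r - σ)) :=
    ⟨_, fun n => rfl⟩
  have h1 : ((∑ r ∈ S, ‖P r‖ : ℝ) : ℂ) =
      ∑ n ∈ Icc 1 M, b n * (n : ℂ) ^ (-(σ : ℂ)) * A n := by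
    rw [ofReal_sum]
    rw [sum_congr rfl fun r _ => (hηP r).symm]
    simp only [hP, hA, mul_sum]
    rw [sum_comm]
    refine sum_congr rfl fun n hn => sum_congr rfl fun r _ => ?_
    rw [one_div, ← cpow_neg, show -(s r) = -(σ : ℂ) + -(s r - σ) by ring,
      cpow_add _ _ (Nat.cast_ne_zero.2 (show n ≠ 0 by have := (mem_Icc.1 hn).1; omega))]
    ring
  have h2 : (∑ r ∈ S, ‖P r‖) ^ 2 ≤
      (∑ n ∈ Icc 1 M, (n : ℝ) ^ (-(2 * σ)) * ‖b n‖ ^ 2) * ∑ n ∈ Icc 1 M, ‖A n‖ ^ 2 := by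
    have h0 : ∑ r ∈ S, ‖P r‖ ≤ ∑ n ∈ Icc 1 M, (n : ℝ) ^ (-σ) * ‖b n‖ * ‖A n‖ := by
      have h := congrArg norm h1
      rw [Complex.norm_real, Real.norm_of_nonneg (sum_nonneg fun r _ => norm_nonneg _)] at h
      rw [h]
      refine (norm_sum_le _ _).trans (le_of_eq (sum_congr rfl fun n hn => ?_))
      rw [norm_mul, norm_mul, norm_natCast_cpow_of_pos (mem_Icc.1 hn).1, neg_re, ofReal_re]
      ring
    refine (pow_le_pow_left₀ (sum_nonneg fun r _ => norm_nonneg _) h0 2).trans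
      ((sum_mul_sq_le_sq_mul_sq _ _ _).trans (le_of_eq ?_))
    congr 1
    refine sum_congr rfl fun n hn => ?_
    rw [mul_pow, ← Real.rpow_mul_natCast (Nat.cast_nonneg n)]
    push_cast
    ring_nf
  have h3 : ∑ n ∈ Icc 1 M, ‖A n‖ ^ 2 ≤
      S.card * (600 * M * (1 + Real.log (T + 2))) +
        (S.card : ℝ) ^ 2 * (87 * √(1 + D) * ((Nat.log 2 M : ℝ) + 1)) := by
    have e : ((∑ n ∈ Icc 1 M, ‖A n‖ ^ 2 : ℝ) : ℂ) = ∑ r ∈ S, ∑ x ∈ S, η r * conj (η x) *
        ∑ n ∈ Icc 1 M, (n : ℂ) ^ (-((s r - σ) + conj (s x - σ))) := by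
      rw [ofReal_sum]
      simp only [mul_sum]
      conv_rhs => enter [2, r]; rw [sum_comm]
      rw [sum_comm (s := S)]
      refine sum_congr rfl fun n hn => ?_
      rw [ofReal_pow, ← Complex.mul_conj', hA, map_sum, sum_mul_sum]
      refine sum_congr rfl fun r _ => sum_congr rfl fun x _ => ?_
      rw [map_mul, conj_natCast_cpow (mem_Icc.1 hn).1, neg_add,
        cpow_add _ _ (Nat.cast_ne_zero.2 (show n ≠ 0 by have := (mem_Icc.1 hn).1; omega)), map_neg]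
      ring
    have h := congrArg norm e
    rw [Complex.norm_real, Real.norm_of_nonneg (sum_nonneg fun n _ => sq_nonneg _)] at h
    rw [h]
    refine (norm_sum_le _ _).trans ((sum_le_card_nsmul _ _
      (600 * M * (1 + Real.log (T + 2)) +
        S.card * (87 * √(1 + D) * ((Nat.log 2 M : ℝ) + 1))) fun r hr => ?_).trans (le_of_eq ?_))
    · refine (norm_sum_le _ _).trans ((sum_le_sum (g := fun x =>
        150 * M * (1 / (1 + |(s r).im - (s x).im|)) +
          87 * √(1 + D) * ((Nat.log 2 M : ℝ) + 1)) fun x hx => ?_).trans ?_)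
      · rw [norm_mul, norm_mul, Complex.norm_conj]
        refine (mul_le_of_le_one_left (norm_nonneg _)
          (mul_le_one₀ (hη1 r) (norm_nonneg _) (hη1 x))).trans ?_
        refine (norm_power_sum_le M (by
          simp only [add_re, sub_re, conj_re, ofReal_re]
          linarith [(hs r hr).1, (hs x hx).1])).trans ?_
        rw [kernelBound, mul_one_div,
          show ((s r - σ) + conj (s x - σ)).im = (s r).im - (s x).im by simp; ring]
        gcongr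
        exact hD r hr x hx
      · rw [sum_add_distrib, ← mul_sum, sum_const, nsmul_eq_mul]
        refine add_le_add ((mul_le_mul_of_nonneg_left (sum_inv_spaced_le S (fun x => (s x).im) hT
          (fun x hx => (hs x hx).2) hinj hr) (by positivity)).trans (le_of_eq ?_)) le_rfl
        ring
    · rw [nsmul_eq_mul]
      ring
  have h4 : (S.card : ℝ) * V ≤ ∑ r ∈ S, ‖P r‖ := by
    rw [← nsmul_eq_mul]
    exact card_nsmul_le_sum _ _ _ fun r hr => hP r ▸ hbig r hr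
  have hA0 : 0 ≤ ∑ n ∈ Icc 1 M, ‖A n‖ ^ 2 := sum_nonneg fun n _ => sq_nonneg _
  exact (pow_le_pow_left₀ (by positivity) h4 2).trans (h2.trans (mul_le_mul hG h3 hA0
    ((sum_nonneg fun n _ => by positivity).trans hG)))

/-- **Huxley's large values theorem.** -/
theorem large_values {ι : Type*} (S : Finset ι) (s : ι → ℂ) {σ T V G : ℝ} (hV : 0 < V)
    (hG0 : 0 < G) (hT : 1 ≤ T) (M : ℕ) (b : ℕ → ℂ)
    (hs : ∀ r ∈ S, σ ≤ (s r).re ∧ |(s r).im| ≤ T)
    (hinj : Set.InjOn (fun r => ⌊|(s r).im|⌋₊) S)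
    (hbig : ∀ r ∈ S, V ≤ ‖∑ n ∈ Icc 1 M, b n * (1 / (n : ℂ) ^ s r)‖)
    (hG : ∑ n ∈ Icc 1 M, (n : ℝ) ^ (-(2 * σ)) * ‖b n‖ ^ 2 ≤ G) :
    (S.card : ℝ) ≤ 4 * T * (174 * G * ((Nat.log 2 M : ℝ) + 1) / V ^ 2) ^ 2 +
      (4 * T * (174 * G * ((Nat.log 2 M : ℝ) + 1) / V ^ 2) ^ 2 + 2) *
        (1200 * G * M * (1 + Real.log (T + 2)) / V ^ 2) := by
  classical
  obtain ⟨Lk, hLk⟩ : ∃ Lk : ℝ, Lk = (Nat.log 2 M : ℝ) + 1 := ⟨_, rfl⟩
  have hLk0 : 0 < Lk := hLk ▸ by positivity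
  rw [← hLk]
  obtain ⟨q, hq⟩ : ∃ q : ℝ, q = (174 * G * Lk / V ^ 2) ^ 2 := ⟨_, rfl⟩
  have hq0 : 0 < q := hq ▸ by positivity
  rw [← hq]
  obtain ⟨E, hE⟩ : ∃ E : ℝ, E = 1200 * G * M * (1 + Real.log (T + 2)) / V ^ 2 := ⟨_, rfl⟩
  rw [← hE]
  have hl0 : 0 ≤ Real.log (T + 2) := Real.log_nonneg (by linarith)
  have hE0 : 0 ≤ E := hE ▸ by positivity
  rcases le_or_gt (1 / 2) q with hbigq | hsmall
  · have hc : S.card ≤ ⌊T⌋₊ + 1 := by
      refine (card_le_card_of_injOn (fun r => ⌊|(s r).im|⌋₊) (fun r hr => ?_) hinj).trans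
        (le_of_eq (card_range _))
      exact mem_coe.2 (mem_range.2 (Nat.lt_succ_of_le (Nat.floor_mono (hs r hr).2)))
    have hc' : (S.card : ℝ) ≤ 2 * T := by
      refine (Nat.cast_le.2 hc).trans ?_
      push_cast
      linarith [Nat.floor_le (show 0 ≤ T by linarith)]
    have : 2 * T ≤ 4 * T * q := by nlinarith
    have : 0 ≤ (4 * T * q + 2) * E := by positivity
    linarith
  obtain ⟨D, hD⟩ : ∃ D : ℝ, D = 1 / q - 1 := ⟨_, rfl⟩
  have hq2 : 2 < 1 / q := by rw [lt_div_iff₀ hq0]; linarith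
  have hD1 : 1 / (2 * q) ≤ D := by
    rw [hD, show 1 / (2 * q) = 1 / q / 2 by ring]
    linarith
  have hD0 : 0 < D := lt_of_lt_of_le (by positivity) hD1
  have hsq : G * (87 * √(1 + D) * Lk) = V ^ 2 / 2 := by
    rw [hD, add_sub_cancel, hq, one_div, ← inv_pow, Real.sqrt_sq (by positivity)]
    field_simp
    ring
  obtain ⟨I', hI'⟩ : ∃ I' : Finset ℤ, I' = Finset.Icc ⌊-T / D⌋ ⌊T / D⌋ := ⟨_, rfl⟩
  have hblock : ∀ i ∈ I', ((S.filter fun r => ⌊(s r).im / D⌋ = i).card : ℝ) ≤ E := by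
    intro i _
    obtain ⟨U, hU⟩ : ∃ U, U = S.filter fun r => ⌊(s r).im / D⌋ = i := ⟨_, rfl⟩
    rw [← hU]
    have hsub : U ⊆ S := hU ▸ filter_subset _ _
    have hUD : ∀ r ∈ U, ∀ x ∈ U, |(s r).im - (s x).im| ≤ D := by
      intro r hr x hx
      rw [hU, mem_filter] at hr hx
      have h := Int.abs_sub_lt_one_of_floor_eq_floor (hr.2.trans hx.2.symm)
      rw [← sub_div, abs_div, abs_of_pos hD0, div_lt_one hD0] at h
      exact h.le
    have h := halasz_montgomery U s hV.le (show 0 ≤ T by linarith) M b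
      (fun r hr => hs r (hsub hr)) (hinj.mono (coe_subset.2 hsub)) hUD
      (fun r hr => hbig r (hsub hr)) hG
    rw [← hLk] at h
    rcases Nat.eq_zero_or_pos U.card with h0 | h0
    · rw [h0, Nat.cast_zero]
      exact hE0
    have hc : (0 : ℝ) < U.card := Nat.cast_pos.2 h0
    have h' : (U.card : ℝ) ^ 2 * (V ^ 2 / 2) ≤
        U.card * (G * (600 * M * (1 + Real.log (T + 2)))) := by
      rw [mul_add, ← mul_assoc G ((U.card : ℝ) ^ 2), mul_comm G ((U.card : ℝ) ^ 2), mul_assoc _ G,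
        hsq] at h
      linarith [mul_pow (U.card : ℝ) V 2]
    rw [hE, le_div_iff₀ (by positivity)]
    refine le_of_mul_le_mul_left ?_ hc
    linarith
  have hmaps : ∀ r ∈ S, ⌊(s r).im / D⌋ ∈ I' := fun r hr => by
    rw [hI', Finset.mem_Icc]
    obtain ⟨h1, h2⟩ := abs_le.1 (hs r hr).2
    exact ⟨Int.floor_mono (div_le_div_of_nonneg_right h1 hD0.le),
      Int.floor_mono (div_le_div_of_nonneg_right h2 hD0.le)⟩
  have hcard : (I'.card : ℝ) ≤ 4 * T * q + 2 := by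
    rw [hI', Int.card_Icc]
    have h1 := Int.floor_le (T / D)
    have h2 := Int.lt_floor_add_one (-T / D)
    have h3 : ⌊-T / D⌋ ≤ ⌊T / D⌋ :=
      Int.floor_mono (div_le_div_of_nonneg_right (by linarith) hD0.le)
    have h4 : (((⌊T / D⌋ + 1 - ⌊-T / D⌋).toNat : ℕ) : ℝ) =
        ((⌊T / D⌋ + 1 - ⌊-T / D⌋ : ℤ) : ℝ) := by
      rw [← Int.cast_natCast (R := ℝ), Int.toNat_of_nonneg (by omega)]
    rw [h4]
    push_cast
    have h5 : T / D ≤ 2 * T * q := by
      rw [div_le_iff₀ hD0]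
      rw [div_le_iff₀ (by positivity)] at hD1
      nlinarith
    rw [neg_div] at h2 ⊢
    linarith
  rw [card_eq_sum_card_fiberwise (f := fun r => ⌊(s r).im / D⌋) (t := I') hmaps, Nat.cast_sum]
  refine ((sum_le_card_nsmul _ _ _ hblock).trans (le_of_eq (nsmul_eq_mul _ _))).trans ?_
  have : 0 ≤ 4 * T * q := by positivity
  linarith [mul_le_mul_of_nonneg_right hcard hE0]

end FA.Huxley

end
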